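import Fermat.Agent.SwitchThree.Algebra
import Mathlib.RingTheory.Int.Basic
import Mathlib.RingTheory.Coprime.Lemmas
import Mathlib.Data.Nat.Factors
import Mathlib.Data.ZMod.Basic
import Mathlib.Data.Nat.Factorization.Induction
import Mathlib.Data.Nat.Factorization.Basic
import Mathlib.Algebra.BigOperators.Associated
import Mathlib.Tactic.IntervalCases
import Mathlib.Tactic.NormNum.Prime

/-!
# Choice of the parameter

Chinese remainders, lifts of primitive residues to coprime pairs, and a prime `ℓ ≡ ±2 mod 5`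
outside a given finite set modulo which the quartic covariant `penC4` has a zero.
-/

set_option autoImplicit false

namespace Fermat.Agent.SwitchThree

/-- Chinese remainders for two coprime integers. -/
theorem exists_crt {m n : ℤ} (h : IsCoprime m n) (a b : ℤ) :
    ∃ x : ℤ, m ∣ x - a ∧ n ∣ x - b := by
  obtain ⟨s, t, e⟩ := h
  exact ⟨a + (b - a) * (s * m), ⟨(b - a) * s, by ring⟩,
    ⟨-(b - a) * t, by linear_combination (b - a) * e⟩⟩

/-- A residue primitive modulo `M` lifts to a coprime pair. -/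
theorem exists_coprime_lift {M u₀ v₀ : ℤ} (hM : M ≠ 0)
    (h : ∀ p : ℕ, p.Prime → (p : ℤ) ∣ M → ¬((p : ℤ) ∣ u₀ ∧ (p : ℤ) ∣ v₀)) :
    ∃ u v : ℤ, IsCoprime u v ∧ M ∣ u - u₀ ∧ M ∣ v - v₀ := by
  obtain ⟨v, hv, hv0⟩ : ∃ v : ℤ, M ∣ v - v₀ ∧ v ≠ 0 := by
    by_cases hv : v₀ = 0
    · exact ⟨M, by simp [hv], hM⟩
    · exact ⟨v₀, by simp, hv⟩
  set S := v.natAbs.primeFactors.filter fun p : ℕ => ¬ (p : ℤ) ∣ u₀
  set t : ℤ := ∏ p ∈ S, (p : ℤ)
  refine ⟨u₀ + M * t, v, ?_, ⟨t, by ring⟩, hv⟩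
  rw [Int.isCoprime_iff_nat_coprime]
  refine Nat.coprime_of_dvd fun p hp hpu hpv => ?_
  rw [← Int.natCast_dvd] at hpu hpv
  have hpM : (p : ℤ) ∣ M → ¬ (p : ℤ) ∣ u₀ := fun hM' hu => h p hp hM'
    ⟨hu, by simpa using dvd_sub hpv (hM'.trans hv)⟩
  by_cases hu : (p : ℤ) ∣ u₀
  · have hMt : (p : ℤ) ∣ M * t := by simpa using dvd_sub hpu hu
    rcases (Nat.prime_iff_prime_int.mp hp).dvd_or_dvd hMt with h' | h'
    · exact hpM h' hu
    · obtain ⟨q, hq, hpq⟩ := Prime.exists_mem_finset_dvd (Nat.prime_iff_prime_int.mp hp) h'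
      simp only [S, Finset.mem_filter] at hq
      have := (Nat.prime_dvd_prime_iff_eq hp (Nat.prime_of_mem_primeFactors hq.1)).mp
        (Int.natCast_dvd_natCast.mp hpq)
      exact hq.2 (this ▸ hu)
  · have hpS : p ∈ S := by
      simp only [S, Finset.mem_filter, Nat.mem_primeFactors]
      exact ⟨⟨hp, Int.natCast_dvd.mp hpv, Int.natAbs_ne_zero.mpr hv0⟩, hu⟩
    have hMt : (p : ℤ) ∣ M * t := dvd_mul_of_dvd_right (Finset.dvd_prod_of_mem _ hpS) _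
    exact hu (by simpa using dvd_sub hpu hMt)

/-- A natural number that is a nonsquare modulo five has such a prime factor. -/
theorem exists_prime_factor_mod_five (n : ℕ) (h : n % 5 = 2 ∨ n % 5 = 3) :
    ∃ p, p.Prime ∧ p ∣ n ∧ (p % 5 = 2 ∨ p % 5 = 3) := by
  induction n using Nat.recOnMul with
  | zero => simp at h
  | one => simp at h
  | prime p hp => exact ⟨p, hp, dvd_rfl, h⟩
  | mul a b iha ihb =>
    rw [Nat.mul_mod] at h
    have ha : a % 5 < 5 := Nat.mod_lt _ (by norm_num)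
    have hb : b % 5 < 5 := Nat.mod_lt _ (by norm_num)
    by_cases h1 : a % 5 = 2 ∨ a % 5 = 3
    · obtain ⟨p, hp, hd, hr⟩ := iha h1
      exact ⟨p, hp, hd.mul_right b, hr⟩
    · obtain ⟨p, hp, hd, hr⟩ := ihb (by
        interval_cases ha' : a % 5 <;> interval_cases hb' : b % 5 <;> simp_all)
      exact ⟨p, hp, hd.mul_left a, hr⟩

/-- A zero of `penC4` from a zero of `penD`. -/
theorem penD_dvd_penC4 (a b A B : ℤ) :
    penD a b A B ∣ penC4 a b (A ^ 3 - 7 * a * A * B ^ 2 - 8 * b * B ^ 3) (2 * a * B ^ 3) :=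
  ⟨A ^ 8 * a - 22 * A ^ 6 * a ^ 2 * B ^ 2 - 16 * A ^ 5 * a * b * B ^ 3
    + 165 * A ^ 4 * a ^ 3 * B ^ 4 + 232 * A ^ 3 * a ^ 2 * b * B ^ 5 - 424 * A ^ 2 * a ^ 4 * B ^ 6
    + 64 * A ^ 2 * a * b ^ 2 * B ^ 6 - 864 * A * a ^ 3 * b * B ^ 7 + 16 * a ^ 5 * B ^ 8
    - 448 * a ^ 2 * b ^ 2 * B ^ 8, by simp only [penD, penC4]; ring⟩

/-- A prime nonsquare modulo five with a zero of the quartic covariant. -/
theorem exists_prime_zero {a b K : ℤ} (hK : K ≠ 0) (ha : a ≠ 0) (h5 : ¬ (5 : ℤ) ∣ a) :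
    ∃ (ℓ : ℕ) (u v : ℤ), ℓ.Prime ∧ (ℓ % 5 = 2 ∨ ℓ % 5 = 3) ∧ ¬ (ℓ : ℤ) ∣ K ∧
      (ℓ : ℤ) ∣ penC4 a b u v ∧ ¬ (ℓ : ℤ) ∣ v := by
  obtain ⟨N, hN⟩ : ∃ N : ℕ, (2 * a * K).natAbs = N := ⟨_, rfl⟩
  have hN0 : N ≠ 0 := hN ▸ by simp [ha, hK]
  set K' : ℕ := ordCompl[5] N with hK'
  have hcop : IsCoprime ((K' : ℕ) : ℤ) 5 := by
    exact_mod_cast Nat.isCoprime_iff_coprime.mpr (Nat.coprime_ordCompl (by norm_num) hN0).symm
  have hmem : ∀ p : ℕ, p.Prime → p ≠ 5 → (p : ℤ) ∣ 2 * a * K → (p : ℤ) ∣ (K' : ℤ) := by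
    intro p hp hp5 hd
    rw [Int.natCast_dvd, hN, ← Nat.ordProj_mul_ordCompl_eq_self N 5] at hd
    refine Int.natCast_dvd_natCast.mpr ((hp.dvd_mul.mp hd).resolve_left fun h' => hp5 ?_)
    exact (Nat.prime_dvd_prime_iff_eq hp (by norm_num)).mp (hp.dvd_of_dvd_pow h')
  obtain ⟨x₀, hx1, hx5⟩ := exists_crt hcop 1 0
  obtain ⟨y₀, hy1, hy5⟩ := exists_crt hcop 0 1
  have hK0 : K' ≠ 0 := (Nat.ordCompl_pos 5 hN0).ne'
  obtain ⟨A, B, hAB, hA, hB⟩ := exists_coprime_lift (M := (K' : ℤ) * 5)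
    (by simpa using hK0) (u₀ := x₀) (v₀ := y₀) (by
      intro p hp hd ⟨hu, hv⟩
      have hp' := Nat.prime_iff_prime_int.mp hp
      rcases hp'.dvd_or_dvd hd with h' | h'
      · exact hp'.not_dvd_one (by simpa using dvd_sub hu (h'.trans hx1))
      · exact hp'.not_dvd_one (by simpa using dvd_sub hv (h'.trans hy5)))
  have hA1 : (K' : ℤ) ∣ A - 1 := by
    simpa using dvd_add ((dvd_mul_right _ _).trans hA) hx1
  have hB1 : (K' : ℤ) ∣ B := by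
    simpa using dvd_add ((dvd_mul_right _ _).trans hB) hy1
  have hA5 : ((A : ℤ) : ZMod 5) = 0 :=
    (ZMod.intCast_zmod_eq_zero_iff_dvd A 5).mpr
      (by simpa using dvd_add ((dvd_mul_left _ _).trans hA) hx5)
  have hB5 : ((B : ℤ) : ZMod 5) = 1 := by
    have := (ZMod.intCast_zmod_eq_zero_iff_dvd (B - 1) 5).mpr
      (by simpa using dvd_add ((dvd_mul_left _ _).trans hB) hy5)
    push_cast at this
    exact sub_eq_zero.mp this
  have h5D : ((penD a b A B : ℤ) : ZMod 5) = 2 * (a : ZMod 5) ^ 2 := by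
    simp only [penD]
    push_cast [hA5, hB5]
    have : (5 : ZMod 5) = 0 := rfl
    linear_combination (-(a : ZMod 5) ^ 2) * this
  have hres : (penD a b A B).natAbs % 5 = 2 ∨ (penD a b A B).natAbs % 5 = 3 := by
    have ha5 : (a : ZMod 5) ≠ 0 := fun h => h5 ((ZMod.intCast_zmod_eq_zero_iff_dvd a 5).mp h)
    have key : ∀ x : ZMod 5, x ≠ 0 → (2 * x ^ 2 = 2 ∨ 2 * x ^ 2 = 3) ∧
        (-(2 * x ^ 2) = 2 ∨ -(2 * x ^ 2) = 3) := by decide
    obtain ⟨k1, k2⟩ := key _ ha5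
    have conv : ∀ m : ℕ, ((m : ZMod 5) = 2 ∨ (m : ZMod 5) = 3) → m % 5 = 2 ∨ m % 5 = 3 := by
      intro m hm
      rcases hm with hm | hm
      · left; simpa using (ZMod.natCast_eq_natCast_iff' m 2 5).mp (by simpa using hm)
      · right; simpa using (ZMod.natCast_eq_natCast_iff' m 3 5).mp (by simpa using hm)
    apply conv
    obtain ⟨D₀, hD₀⟩ : ∃ n : ℕ, (penD a b A B).natAbs = n := ⟨_, rfl⟩
    rw [hD₀]
    rcases Int.natAbs_eq (penD a b A B) with e | e <;> rw [e, hD₀] at h5D <;> push_cast at h5D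
    · rw [h5D]; exact k1
    · rw [neg_eq_iff_eq_neg] at h5D; rw [h5D]; exact k2
  obtain ⟨ℓ, hℓ, hd, hmod⟩ := exists_prime_factor_mod_five _ hres
  have hℓD : (ℓ : ℤ) ∣ penD a b A B := Int.natCast_dvd.mpr hd
  have hℓK : ¬ (ℓ : ℤ) ∣ (K' : ℤ) := by
    intro h'
    refine (Nat.prime_iff_prime_int.mp hℓ).not_dvd_one ?_
    obtain ⟨x, hx⟩ := h'.trans hA1
    obtain ⟨y, hy⟩ := h'.trans hB1
    obtain ⟨z, hz⟩ := hℓD
    refine ⟨z - x * ((ℓ * x + 1) ^ 3 + (ℓ * x + 1) ^ 2 + (ℓ * x + 1) + 1) + 6 * a * A ^ 2 * y * B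
      + 8 * b * A * y * B ^ 2 + 3 * a ^ 2 * y * B ^ 3, ?_⟩
    obtain rfl : A = ℓ * x + 1 := by linear_combination hx
    subst hy
    simp only [penD] at hz
    linear_combination hz
  have hℓ5 : ℓ ≠ 5 := by rintro rfl; simp at hmod
  have hℓaK : ¬ (ℓ : ℤ) ∣ 2 * a * K := fun h' => hℓK (hmem ℓ hℓ hℓ5 h')
  refine ⟨ℓ, _, _, hℓ, hmod, fun h' => hℓaK (dvd_mul_of_dvd_right h' _),
    hℓD.trans (penD_dvd_penC4 a b A B), fun h' => ?_⟩
  have hp' := Nat.prime_iff_prime_int.mp hℓ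
  rcases hp'.dvd_or_dvd h' with h' | h'
  · exact hℓaK (dvd_mul_of_dvd_left h' _)
  · have hB' := hp'.dvd_of_dvd_pow h'
    obtain ⟨y, hy⟩ := hB'
    obtain ⟨z, hz⟩ := hℓD
    have hA' : (ℓ : ℤ) ∣ A ^ 4 := by
      refine ⟨z + 6 * a * A ^ 2 * y * B + 8 * b * A * y * B ^ 2 + 3 * a ^ 2 * y * B ^ 3, ?_⟩
      subst hy
      simp only [penD] at hz
      linear_combination hz
    exact hp'.not_isUnit (hAB.isUnit_of_dvd' (hp'.dvd_of_dvd_pow hA') ⟨y, hy⟩)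

end Fermat.Agent.SwitchThree
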