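import Fermat.Agent.SwitchThree.Direct

/-!
# The anti-symplectic pencil

The point map from the three-torsion of the curve `(a, b)` to that of the member
`(-4 d³ penD, -8 d⁴ penC6)`, `d = a³ - b²`, of the anti-symplectic pencil: it is given by explicit
rational functions, is injective and preserves collinearity.
-/

set_option autoImplicit false

namespace Fermat.Agent.SwitchThree

variable {K : Type*} [Field K] [CharZero K]

/-- `1 / (2 d)` times the abscissa on the base curve of the anti-symplectic pencil. -/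
def antiW (a b t : K) : K := -t ^ 3 / 2 + 7 / 2 * a * t + 3 * b

/-- The factor of the ordinate. -/
def antiS (a b t : K) : K := -b * t ^ 3 + a ^ 2 * t ^ 2 + 5 * a * b * t + 8 * b ^ 2 - 5 * a ^ 3

/-- The quartic satisfied by `antiW`. -/
def antiG (a b w : K) : K :=
  w ^ 4 + 6 * discAB a b * w ^ 2 + 8 * discAB a b * b * w - 3 * discAB a b ^ 2

/-- The cubic matching `antiG`. -/
def antiH (a b w : K) : K := w ^ 3 + 3 * discAB a b * w + 2 * discAB a b * b

/-- The numerator of the anti-symplectic point map. -/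
def antiN (a b u v w : K) : K :=
  (a * u ^ 3 + 3 * b * u ^ 2 * v + 3 * a ^ 2 * u * v ^ 2 + a * b * v ^ 3) * w
    - 3 * discAB a b * v * (u ^ 2 - a * v ^ 2)

/-- The denominator of the anti-symplectic point map. -/
def antiM (a b u v w : K) : K := a * u + (b + w) * v

variable {a b u v t : K}

theorem antiG_eq_zero (ht : psiQ a b t = 0) : antiG a b (antiW a b t) = 0 := by
  simp only [psiQ] at ht
  simp only [antiG, antiW, discAB]
  linear_combination (t ^ 8 - 22 * a * t ^ 6 - 16 * b * t ^ 5 + 165 * a ^ 2 * t ^ 4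
    + 232 * a * b * t ^ 3 - 424 * a ^ 3 * t ^ 2 + 64 * b ^ 2 * t ^ 2 - 864 * a ^ 2 * b * t
    + 16 * a ^ 4 - 448 * a * b ^ 2) / 16 * ht

theorem antiS_sq (ht : psiQ a b t = 0) :
    antiS a b t ^ 2 * cubQ a b t = 8 * discAB a b * antiH a b (antiW a b t) := by
  simp only [psiQ] at ht
  simp only [antiS, antiH, antiW, cubQ, discAB]
  linear_combination (8 * t ^ 5 * a ^ 3 - 16 * t ^ 4 * a ^ 2 * b - 112 * t ^ 3 * a ^ 4
    + 64 * t ^ 3 * a * b ^ 2 + 32 * t ^ 2 * a ^ 3 * b + 424 * t * a ^ 5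
    - 320 * t * a ^ 2 * b ^ 2 + 368 * a ^ 4 * b - 320 * a * b ^ 3) / 8 * ht

/-- `antiW` is injective on the roots of `psiQ`. -/
theorem antiW_inj (ha : a ≠ 0) (hd : discAB a b ≠ 0) {t' : K} (ht : psiQ a b t = 0)
    (ht' : psiQ a b t' = 0) (e : antiW a b t = antiW a b t') : t = t' := by
  by_contra hne
  have h0 : t - t' ≠ 0 := sub_ne_zero.mpr hne
  simp only [psiQ] at ht ht'
  simp only [antiW] at e
  have hq : t ^ 2 + t * t' + t' ^ 2 = 7 * a := by
    apply mul_left_cancel₀ h0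
    linear_combination (-2 : K) * e
  have h1 : (t + t') * (t ^ 2 + t' ^ 2) - 6 * a * (t + t') - 8 * b = 0 := by
    apply mul_left_cancel₀ h0
    linear_combination ht - ht'
  have h2 : t * t' * (t ^ 2 + t * t' + t' ^ 2) - 6 * a * (t * t') + 3 * a ^ 2 = 0 := by
    apply mul_left_cancel₀ h0
    linear_combination t' * ht - t * ht'
  have hp : t * t' = -3 * a := by
    apply mul_left_cancel₀ ha
    linear_combination h2 - t * t' * hq
  have he : (t + t') ^ 2 = 4 * a := by linear_combination hq + hp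
  have hb : a * (t + t') = 2 * b := by
    linear_combination (1 / 4 : K) * h1 - (1 / 4 : K) * (t + t') * he + (1 / 2 : K) * (t + t') * hp
  apply hd
  simp only [discAB]
  linear_combination (-1 / 4 : K) * a ^ 2 * he + (1 / 4 : K) * (a * (t + t') + 2 * b) * hb

omit [CharZero K] in
/-- The denominator of the anti-symplectic point map does not vanish on three-torsion. -/
theorem antiM_ne_zero (ha : a ≠ 0) (hC : penC4 a b u v ≠ 0) {w : K} (hw : antiG a b w = 0) :
    antiM a b u v w ≠ 0 := by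
  intro h
  simp only [antiM] at h
  apply hC
  apply mul_left_cancel₀ (pow_ne_zero 3 ha)
  simp only [antiG, discAB] at hw
  simp only [penC4]
  have e : v * w = -(a * u + b * v) := by linear_combination h
  linear_combination v ^ 4 * hw
    - ((v * w) ^ 3 - (a * u + b * v) * (v * w) ^ 2 + (a * u + b * v) ^ 2 * (v * w)
        - (a * u + b * v) ^ 3
      + 6 * (a ^ 3 - b ^ 2) * v ^ 2 * (v * w - (a * u + b * v))
      + 8 * (a ^ 3 - b ^ 2) * b * v ^ 3) * e

omit [CharZero K] in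
/-- The equation of the anti-symplectic member, pulled back by the point map. -/
theorem anti_identity (a b u v w : K) :
    antiN a b u v w ^ 3 + 3 * discAB a b * penD a b u v * antiN a b u v w * antiM a b u v w ^ 2
        + 2 * discAB a b * penC6 a b u v * antiM a b u v w ^ 3 =
      penC4 a b u v ^ 2 * (antiH a b w * antiM a b u v w - v * antiG a b w) := by
  simp only [antiN, antiM, antiG, antiH, discAB, penD, penC4, penC6]; ring

omit [CharZero K] in
/-- The three-division polynomial of the anti-symplectic member, pulled back by the point map. -/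
theorem anti_psi_identity (a b u v w : K) :
    antiN a b u v w ^ 4
        + 6 * discAB a b * penD a b u v * antiN a b u v w ^ 2 * antiM a b u v w ^ 2
        + 8 * discAB a b * penC6 a b u v * antiN a b u v w * antiM a b u v w ^ 3
        - 3 * discAB a b ^ 2 * penD a b u v ^ 2 * antiM a b u v w ^ 4 =
      a * penC4 a b u v ^ 3 * antiG a b w := by
  simp only [antiN, antiM, antiG, discAB, penD, penC4, penC6]; ring

omit [CharZero K] in
/-- A quadratic with three distinct roots vanishes. -/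
theorem quad_eq_zero_of_three_roots {p q r x₁ x₂ x₃ : K} (h₁₂ : x₁ ≠ x₂) (h₁₃ : x₁ ≠ x₃)
    (h₂₃ : x₂ ≠ x₃) (e₁ : p * x₁ ^ 2 + q * x₁ + r = 0) (e₂ : p * x₂ ^ 2 + q * x₂ + r = 0)
    (e₃ : p * x₃ ^ 2 + q * x₃ + r = 0) : p = 0 ∧ q = 0 ∧ r = 0 := by
  have a₁ : p * (x₁ + x₂) + q = 0 := by
    apply mul_left_cancel₀ (sub_ne_zero.mpr h₁₂)
    linear_combination e₁ - e₂
  have a₂ : p * (x₁ + x₃) + q = 0 := by
    apply mul_left_cancel₀ (sub_ne_zero.mpr h₁₃)
    linear_combination e₁ - e₃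
  have hp : p = 0 := by
    apply mul_left_cancel₀ (sub_ne_zero.mpr h₂₃)
    linear_combination a₁ - a₂
  subst hp
  have hq : q = 0 := by linear_combination a₁
  subst hq
  exact ⟨rfl, rfl, by linear_combination e₁⟩

/-- The auxiliary functions are collinear on collinear points of order three. -/
theorem antiLine (ha : a ≠ 0) {x₁ y₁ x₂ y₂ x₃ y₃ : K} (h₁ : IsTors a b x₁ y₁)
    (h₂ : IsTors a b x₂ y₂) (h₃ : IsTors a b x₃ y₃) (h₁₂ : x₁ ≠ x₂) (h₁₃ : x₁ ≠ x₃)
    (h₂₃ : x₂ ≠ x₃) (hdet : lineDet x₁ y₁ x₂ y₂ x₃ y₃ = 0) :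
    lineDet (antiW a b (x₁ / 3)) (antiS a b (x₁ / 3) * y₁) (antiW a b (x₂ / 3))
      (antiS a b (x₂ / 3) * y₂) (antiW a b (x₃ / 3)) (antiS a b (x₃ / 3) * y₃) = 0 := by
  obtain ⟨e₁, p₁⟩ := h₁
  obtain ⟨e₂, p₂⟩ := h₂
  obtain ⟨e₃, p₃⟩ := h₃
  obtain ⟨t₁, rfl⟩ : ∃ t, x₁ = 3 * t := ⟨x₁ / 3, by ring⟩
  obtain ⟨t₂, rfl⟩ : ∃ t, x₂ = 3 * t := ⟨x₂ / 3, by ring⟩
  obtain ⟨t₃, rfl⟩ : ∃ t, x₃ = 3 * t := ⟨x₃ / 3, by ring⟩
  simp only [mul_div_cancel_left₀ _ (by norm_num : (3 : K) ≠ 0)] at p₁ p₂ p₃ ⊢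
  replace h₁₂ : t₁ ≠ t₂ := fun h => h₁₂ (by rw [h])
  replace h₁₃ : t₁ ≠ t₃ := fun h => h₁₃ (by rw [h])
  replace h₂₃ : t₂ ≠ t₃ := fun h => h₂₃ (by rw [h])
  simp only [lineDet] at hdet
  -- the line
  obtain ⟨L, hL⟩ : ∃ L, y₂ - y₁ = L * (3 * t₂ - 3 * t₁) :=
    ⟨(y₂ - y₁) / (3 * t₂ - 3 * t₁), (div_mul_cancel₀ _ (sub_ne_zero.mpr fun h =>
      h₁₂ (mul_left_cancel₀ (by norm_num : (3 : K) ≠ 0) h).symm)).symm⟩
  obtain ⟨k, hk⟩ : ∃ k, y₁ = 3 * L * t₁ + k := ⟨y₁ - 3 * L * t₁, by ring⟩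
  have hk₂ : y₂ = 3 * L * t₂ + k := by linear_combination hL + hk
  have hk₃ : y₃ = 3 * L * t₃ + k := by
    apply mul_left_cancel₀ (sub_ne_zero.mpr h₁₂.symm)
    linear_combination (1 / 3 : K) * hdet + (t₃ - t₁) * hL + (t₂ - t₁) * hk
  subst hk hk₂ hk₃
  -- the cubic cut out by the line and the quartic
  obtain ⟨hc1, hc2, -⟩ := quad_eq_zero_of_three_roots
    (p := 27 * (t₁ + t₂ + t₃) - 9 * L ^ 2)
    (q := -81 * a - 6 * L * k - 27 * (t₁ * t₂ + t₁ * t₃ + t₂ * t₃))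
    (r := -54 * b - k ^ 2 + 27 * (t₁ * t₂ * t₃)) h₁₂ h₁₃ h₂₃
    (by linear_combination -e₁) (by linear_combination -e₂) (by linear_combination -e₃)
  simp only [psiQ] at p₁ p₂ p₃
  obtain ⟨hq1, hq2, hq3⟩ := quad_eq_zero_of_three_roots
    (p := -6 * a - (t₁ * t₂ + t₁ * t₃ + t₂ * t₃) + (t₁ + t₂ + t₃) ^ 2)
    (q := -8 * b + t₁ * t₂ * t₃ - (t₁ + t₂ + t₃) * (t₁ * t₂ + t₁ * t₃ + t₂ * t₃))
    (r := -3 * a ^ 2 + (t₁ + t₂ + t₃) * (t₁ * t₂ * t₃)) h₁₂ h₁₃ h₂₃
    (by linear_combination p₁) (by linear_combination p₂) (by linear_combination p₃)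
  set m := t₁ + t₂ + t₃ with hm
  have hΦ : m ^ 4 - 6 * a * m ^ 2 + 8 * b * m - 3 * a ^ 2 = 0 := by
    linear_combination hq3 + m ^ 2 * hq1 - m * hq2
  have hL0 : L ≠ 0 := by
    rintro rfl
    have hm0 : m = 0 := by linear_combination (1 / 27 : K) * hc1
    rw [hm0] at hΦ
    exact ha (pow_eq_zero_iff (n := 2) two_ne_zero |>.mp (by linear_combination (-1 / 3 : K) * hΦ))
  have hlk : L * k = 9 / 2 * (3 * a - m ^ 2) := by
    linear_combination (-1 / 6 : K) * hc2 - (9 / 2 : K) * (-hq1)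
  have hroot : ∀ t, (t - t₁) * (t - t₂) * (t - t₃) = 0 →
      antiW a b t = -m / 2 * t ^ 2 + (m ^ 2 + a) / 2 * t + (3 * a * m - b - m ^ 3 / 2) ∧
      L * (antiS a b t * (3 * L * t + k)) = 9 / 2 *
        ((3 * a ^ 3 + a ^ 2 * m ^ 2 - 5 * a * b * m + b * m ^ 3) * t ^ 2
          + (2 * a ^ 3 * m - 3 * a ^ 2 * b - 2 * a ^ 2 * m ^ 3 + 4 * a * b * m ^ 2 - b * m ^ 4) * t
          + (-15 * a ^ 4 - 7 * a ^ 3 * m ^ 2 + 34 * a ^ 2 * b * m + 2 * a ^ 2 * m ^ 4
            + 3 * a * b * m ^ 3 - 16 * b ^ 2 * m ^ 2 - b * m ^ 5)) := by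
    intro t ht
    have hp : t ^ 3 - m * t ^ 2 + (m ^ 2 - 6 * a) * t - (8 * b + m * (m ^ 2 - 6 * a)) = 0 := by
      linear_combination ht + t * hq1 - m * hq1 + hq2
    refine ⟨?_, ?_⟩
    · simp only [antiW]
      linear_combination (-1 / 2 : K) * hp
    · simp only [antiS]
      linear_combination (9 / 2 : K) * (-2 * t * b * m + 2 * a ^ 2 * m - 3 * a * b - b * m ^ 2) * hp
        + (-b * t ^ 3 + a ^ 2 * t ^ 2 + 5 * a * b * t + 8 * b ^ 2 - 5 * a ^ 3)
          * ((-1 / 3 : K) * t * hc1 + hlk)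
  obtain ⟨w₁, s₁⟩ := hroot t₁ (by ring)
  obtain ⟨w₂, s₂⟩ := hroot t₂ (by ring)
  obtain ⟨w₃, s₃⟩ := hroot t₃ (by ring)
  apply mul_left_cancel₀ hL0
  rw [mul_zero]
  trans lineDet (antiW a b t₁) (L * (antiS a b t₁ * (3 * L * t₁ + k))) (antiW a b t₂)
    (L * (antiS a b t₂ * (3 * L * t₂ + k))) (antiW a b t₃) (L * (antiS a b t₃ * (3 * L * t₃ + k)))
  · simp only [lineDet]; ring
  rw [w₁, w₂, w₃, s₁, s₂, s₃, lineDet]
  linear_combination (9 / 2 : K) * (a ^ 2 / 2) * ((t₂ - t₁) * (t₃ - t₁) * (t₂ - t₃)) * hΦ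

/-- The point map to the member `(u : v)` of the anti-symplectic pencil. -/
def antiMap (a b u v : K) (ha : a ≠ 0) (hd : discAB a b ≠ 0) (hC : penC4 a b u v ≠ 0) :
    CoordMap a b (-4 * discAB a b ^ 3 * penD a b u v) (-8 * discAB a b ^ 4 * penC6 a b u v) where
  X x := 6 * discAB a b * antiN a b u v (antiW a b (x / 3)) / antiM a b u v (antiW a b (x / 3))
  Y x y := discAB a b * penC4 a b u v * (antiS a b (x / 3) * y)
    / antiM a b u v (antiW a b (x / 3))
  mem x y h := by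
    obtain ⟨he, hψ⟩ := h
    obtain ⟨t, rfl⟩ : ∃ t, x = 3 * t := ⟨x / 3, by ring⟩
    rw [mul_div_cancel_left₀ t (by norm_num : (3 : K) ≠ 0)] at hψ ⊢
    have hg := antiG_eq_zero hψ
    have hs := antiS_sq hψ
    have hM := antiM_ne_zero (u := u) (v := v) ha hC hg
    have e := anti_identity a b u v (antiW a b t)
    have e' := anti_psi_identity a b u v (antiW a b t)
    rw [hg] at e e'
    simp only [cubQ] at hs
    set w := antiW a b t
    set M := antiM a b u v w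
    set N := antiN a b u v w
    set d := discAB a b
    set C := penC4 a b u v
    set S := antiS a b t
    constructor
    · field_simp
      linear_combination M * C ^ 2 * S ^ 2 * he + 27 * M * C ^ 2 * hs
        - 216 * d * e
    · simp only [psiQ]
      field_simp
      linear_combination 1296 * d ^ 4 * e'
  neg x y := by ring
  inj x x' y y' h h' e := by
    have hM := antiM_ne_zero (u := u) (v := v) ha hC (antiG_eq_zero h.psi)
    have hM' := antiM_ne_zero (u := u) (v := v) ha hC (antiG_eq_zero h'.psi)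
    rw [div_eq_div_iff hM hM'] at e
    have : 6 * discAB a b * a * penC4 a b u v
        * (antiW a b (x / 3) - antiW a b (x' / 3)) = 0 := by
      simp only [antiN, antiM, discAB] at e
      simp only [penC4, discAB]
      linear_combination e
    have hw := sub_eq_zero.mp ((mul_eq_zero.mp this).resolve_left
      (mul_ne_zero (mul_ne_zero (mul_ne_zero (by norm_num) hd) ha) hC))
    exact (div_left_inj' (by norm_num : (3 : K) ≠ 0)).mp (antiW_inj ha hd h.psi h'.psi hw)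
  collinear x₁ y₁ x₂ y₂ x₃ y₃ h₁ h₂ h₃ h₁₂ h₁₃ h₂₃ hdet := by
    have m₁ := antiM_ne_zero (u := u) (v := v) ha hC (antiG_eq_zero h₁.psi)
    have m₂ := antiM_ne_zero (u := u) (v := v) ha hC (antiG_eq_zero h₂.psi)
    have m₃ := antiM_ne_zero (u := u) (v := v) ha hC (antiG_eq_zero h₃.psi)
    apply mul_right_cancel₀ (mul_ne_zero (mul_ne_zero m₁ m₂) m₃)
    rw [zero_mul, lineDet_div m₁ m₂ m₃]
    have hl := antiLine ha h₁ h₂ h₃ h₁₂ h₁₃ h₂₃ hdet
    simp only [lineDet] at hl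
    generalize antiW a b (x₁ / 3) = w₁ at hl ⊢
    generalize antiW a b (x₂ / 3) = w₂ at hl ⊢
    generalize antiW a b (x₃ / 3) = w₃ at hl ⊢
    generalize antiS a b (x₁ / 3) * y₁ = s₁ at hl ⊢
    generalize antiS a b (x₂ / 3) * y₂ = s₂ at hl ⊢
    generalize antiS a b (x₃ / 3) * y₃ = s₃ at hl ⊢
    simp only [antiN, antiM, penC4]
    have hd' : discAB a b = a ^ 3 - b ^ 2 := rfl
    generalize discAB a b = d at hd' ⊢
    subst hd'
    linear_combination (6 * (a ^ 3 - b ^ 2) ^ 2 * a *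
      (a * u ^ 4 + 4 * b * u ^ 3 * v + 6 * a ^ 2 * u ^ 2 * v ^ 2 + 4 * a * b * u * v ^ 3
        - (3 * a ^ 3 - 4 * b ^ 2) * v ^ 4) ^ 2) * hl

end Fermat.Agent.SwitchThree
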