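import Fermat.Agent.SwitchThree.Trace
import Fermat.Agent.SwitchThree.Anti
import Fermat.Agent.TWHyp.Curve

/-!
# Congruences modulo three between members of the pencils

A member of either pencil through a curve has the same Galois trace on three-torsion, hence its
`a_ℓ` is congruent to that of the curve modulo three at the common good primes `ℓ ≠ 3`.
-/

set_option autoImplicit false

noncomputable section

open WeierstrassCurve WeierstrassCurve.Affine WeierstrassCurve.Affine.Point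

namespace Fermat.Agent.SwitchThree

local notation "ℚbar" => AlgebraicClosure ℚ

/-- Equal traces on three-torsion give congruent `a_ℓ`. -/
theorem dvd_sub_of_galoisTrace {W W' : WeierstrassCurve ℤ}
    (h : ∀ σ : ℚbar ≃ₐ[ℚ] ℚbar, galoisTrace ℚ (W.map (Int.castRingHom ℚ)) 3 σ =
      galoisTrace ℚ (W'.map (Int.castRingHom ℚ)) 3 σ)
    {ℓ : ℕ} (hℓ : ℓ.Prime) (hW : W.IsGoodPrimeFor ℓ) (hW' : W'.IsGoodPrimeFor ℓ) (h3 : ℓ ≠ 3) :
    (3 : ℤ) ∣ W'.apOfModel ℓ - W.apOfModel ℓ := by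
  obtain ⟨A, hA⟩ := GaloisBasics.exists_liesOverPrime hℓ
  obtain ⟨φ, hφ⟩ := GaloisBasics.exists_isFrobeniusAt hA hℓ
  have hn : ¬ ℓ ∣ 3 := fun hd => h3 ((Nat.prime_dvd_prime_iff_eq hℓ Nat.prime_three).mp hd)
  have e₁ := (TWHyp.frobenius_trace_det W (n := 3) hℓ hn hW hA hφ).1
  have e₂ := (TWHyp.frobenius_trace_det W' (n := 3) hℓ hn hW' hA hφ).1
  rw [TWHyp.torsionEnd, ← galoisTrace_def] at e₁ e₂
  rw [h φ, e₂] at e₁
  exact_mod_cast (ZMod.intCast_eq_intCast_iff_dvd_sub _ _ 3).mp e₁.symm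

/-- Every curve over `ℚ` is isomorphic to its short form. -/
theorem exists_variableChange_shortE (E : WeierstrassCurve ℚ) :
    ∃ C : VariableChange ℚ, C • E = shortE E.c₄ E.c₆ := by
  refine ⟨⟨Units.mk0 (1 / 6) (by norm_num), -E.b₂ / 12, -E.a₁ / 2,
    -(E.a₃ - E.b₂ / 12 * E.a₁) / 2⟩, ?_⟩
  ext <;>
    simp only [variableChange_def, shortE, WeierstrassCurve.c₄, WeierstrassCurve.c₆,
      WeierstrassCurve.b₂, WeierstrassCurve.b₄, WeierstrassCurve.b₆, Units.val_inv_eq_inv_val,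
      Units.val_mk0, one_div, inv_inv] <;>
    ring

/-- The short form has the same traces on three-torsion. -/
theorem galoisTrace_shortE (W : WeierstrassCurve ℤ) (σ : ℚbar ≃ₐ[ℚ] ℚbar) :
    galoisTrace ℚ (shortE (W.c₄ : ℚ) (W.c₆ : ℚ)) 3 σ =
      galoisTrace ℚ (W.map (Int.castRingHom ℚ)) 3 σ := by
  obtain ⟨C, hC⟩ := exists_variableChange_shortE (W.map (Int.castRingHom ℚ))
  rw [map_c₄, map_c₆, eq_intCast, eq_intCast] at hC
  rw [← hC, galoisTrace_variableChange]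

/-- Scaling `(A, B)` with weights four and six preserves the traces on three-torsion. -/
theorem galoisTrace_shortE_scale (A B μ : ℚ) (hμ : μ ≠ 0) (σ : ℚbar ≃ₐ[ℚ] ℚbar) :
    galoisTrace ℚ (shortE (μ ^ 4 * A) (μ ^ 6 * B)) 3 σ = galoisTrace ℚ (shortE A B) 3 σ := by
  have e : shortE (μ ^ 4 * A) (μ ^ 6 * B) =
      (⟨(Units.mk0 μ hμ)⁻¹, 0, 0, 0⟩ : VariableChange ℚ) • shortE A B := by
    ext <;> simp [variableChange_def, shortE] <;> ring
  rw [e, galoisTrace_variableChange]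

/-- `c₄³ - c₆² = 1728 Δ`. -/
theorem discAB_c₄_c₆ (W : WeierstrassCurve ℤ) : discAB W.c₄ W.c₆ = 1728 * W.Δ :=
  W.c_relation.symm

theorem discAB_cast_ne_zero {W : WeierstrassCurve ℤ} (hΔ : W.Δ ≠ 0) :
    discAB (W.c₄ : ℚ) (W.c₆ : ℚ) ≠ 0 := by
  have h : discAB (W.c₄ : ℚ) (W.c₆ : ℚ) = ((discAB W.c₄ W.c₆ : ℤ) : ℚ) := by simp [discAB]
  rw [h, discAB_c₄_c₆]
  exact_mod_cast mul_ne_zero (by norm_num) hΔ

/-- Members of the direct pencil are congruent modulo three. -/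
theorem congruence_direct {W W' : WeierstrassCurve ℤ} (hΔ : W.Δ ≠ 0) {u v : ℤ}
    (hD : penD W.c₄ W.c₆ u v ≠ 0) (h₄ : W'.c₄ = penC4 W.c₄ W.c₆ u v)
    (h₆ : W'.c₆ = penC6 W.c₄ W.c₆ u v) {ℓ : ℕ} (hℓ : ℓ.Prime) (hW : W.IsGoodPrimeFor ℓ)
    (hW' : W'.IsGoodPrimeFor ℓ) (h3 : ℓ ≠ 3) :
    (3 : ℤ) ∣ W'.apOfModel ℓ - W.apOfModel ℓ := by
  refine dvd_sub_of_galoisTrace (fun σ => ?_) hℓ hW hW' h3
  set a : ℚ := (W.c₄ : ℚ)
  set b : ℚ := (W.c₆ : ℚ)
  have hd := discAB_cast_ne_zero hΔ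
  have hDq : penD a b (u : ℚ) (v : ℚ) ≠ 0 := by
    have h : penD a b (u : ℚ) (v : ℚ) = ((penD W.c₄ W.c₆ u v : ℤ) : ℚ) :=
      (map_penD _ _ _ _ (Int.castRingHom ℚ)).symm
    rw [h]; exact_mod_cast hD
  have hd' : discAB (penC4 a b u v) (penC6 a b u v) ≠ 0 := by
    rw [show discAB (penC4 a b (u : ℚ) v) (penC6 a b (u : ℚ) v) = _ from penC4_cube_sub a b _ _]
    exact mul_ne_zero hd (pow_ne_zero _ hDq)
  set ι := algebraMap ℚ ℚbar
  have hD' : penD (ι a) (ι b) (ι u) (ι v) ≠ 0 := by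
    rw [← map_penD]; exact (map_ne_zero ι).mpr hDq
  let φ₀ := directMap (ι a) (ι b) (ι u) (ι v) hD'
  let φ : CoordMap (ι a) (ι b) (ι (penC4 a b (u : ℚ) v)) (ι (penC6 a b (u : ℚ) v)) :=
    { φ₀ with
      mem := fun x y h => by rw [map_penC4, map_penC6]; exact φ₀.mem x y h }
  have key := galoisTrace_eq_of_coordMap hd hd' φ
    (fun τ x => by simp [φ, φ₀, directMap, dirN, ι, map_ofNat])
    (fun τ x y => by simp [φ, φ₀, directMap, penD, ι, map_ofNat]) σ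
  have e' : shortE (W'.c₄ : ℚ) (W'.c₆ : ℚ) = shortE (penC4 a b u v) (penC6 a b u v) := by
    have e₁ : penC4 a b (u : ℚ) (v : ℚ) = ((W'.c₄ : ℤ) : ℚ) :=
      h₄ ▸ (map_penC4 _ _ _ _ (Int.castRingHom ℚ)).symm
    have e₂ : penC6 a b (u : ℚ) (v : ℚ) = ((W'.c₆ : ℤ) : ℚ) :=
      h₆ ▸ (map_penC6 _ _ _ _ (Int.castRingHom ℚ)).symm
    rw [e₁, e₂]
  rw [← galoisTrace_shortE W, ← galoisTrace_shortE W', e']
  exact key

/-- Members of the anti-symplectic pencil are congruent modulo three. -/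
theorem congruence_anti {W W' : WeierstrassCurve ℤ} (hΔ : W.Δ ≠ 0) (ha : W.c₄ ≠ 0) {u v lam : ℤ}
    (hlam : lam ≠ 0) (hC : penC4 W.c₄ W.c₆ u v ≠ 0)
    (h₄ : lam ^ 4 * W.Δ * W'.c₄ = -3 * penD W.c₄ W.c₆ u v)
    (h₆ : 8 * lam ^ 6 * W.Δ ^ 2 * W'.c₆ = -penC6 W.c₄ W.c₆ u v)
    {ℓ : ℕ} (hℓ : ℓ.Prime) (hW : W.IsGoodPrimeFor ℓ) (hW' : W'.IsGoodPrimeFor ℓ) (h3 : ℓ ≠ 3) :
    (3 : ℤ) ∣ W'.apOfModel ℓ - W.apOfModel ℓ := by
  refine dvd_sub_of_galoisTrace (fun σ => ?_) hℓ hW hW' h3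
  set a : ℚ := (W.c₄ : ℚ)
  set b : ℚ := (W.c₆ : ℚ)
  have hd := discAB_cast_ne_zero hΔ
  have hdΔ : discAB a b = 1728 * (W.Δ : ℚ) := by
    have := congrArg (Int.cast : ℤ → ℚ) (discAB_c₄_c₆ W)
    push_cast [discAB] at this
    simpa [discAB, a, b] using this
  have haq : a ≠ 0 := by simpa [a] using ha
  have hCq : penC4 a b (u : ℚ) (v : ℚ) ≠ 0 := by
    have h : penC4 a b (u : ℚ) (v : ℚ) = ((penC4 W.c₄ W.c₆ u v : ℤ) : ℚ) :=
      (map_penC4 _ _ _ _ (Int.castRingHom ℚ)).symm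
    rw [h]; exact_mod_cast hC
  set A' := -4 * discAB a b ^ 3 * penD a b (u : ℚ) v with hA'
  set B' := -8 * discAB a b ^ 4 * penC6 a b (u : ℚ) v with hB'
  have hd' : discAB A' B' ≠ 0 := by
    have : discAB A' B' = -64 * discAB a b ^ 8 * penC4 a b (u : ℚ) v ^ 3 := by
      have h := penC4_cube_sub a b (u : ℚ) v
      rw [hA', hB']
      simp only [discAB] at h ⊢
      linear_combination (64 * (a ^ 3 - b ^ 2) ^ 8) * h
    rw [this]
    exact mul_ne_zero (mul_ne_zero (by norm_num) (pow_ne_zero _ hd)) (pow_ne_zero _ hCq)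
  set ι := algebraMap ℚ ℚbar
  have hd₁ : discAB (ι a) (ι b) ≠ 0 := by rw [← map_discAB]; exact (map_ne_zero ι).mpr hd
  have hC₁ : penC4 (ι a) (ι b) (ι u) (ι v) ≠ 0 := by
    rw [← map_penC4]; exact (map_ne_zero ι).mpr hCq
  let φ₀ := antiMap (ι a) (ι b) (ι u) (ι v) ((map_ne_zero ι).mpr haq) hd₁ hC₁
  let φ : CoordMap (ι a) (ι b) (ι A') (ι B') :=
    { φ₀ with
      mem := fun x y h => by
        have h4 : ι A' = -4 * discAB (ι a) (ι b) ^ 3 * penD (ι a) (ι b) (ι u) (ι v) := by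
          rw [hA']; simp only [map_mul, map_neg, map_pow, map_ofNat, map_penD, map_discAB]
        have h6 : ι B' = -8 * discAB (ι a) (ι b) ^ 4 * penC6 (ι a) (ι b) (ι u) (ι v) := by
          rw [hB']; simp only [map_mul, map_neg, map_pow, map_ofNat, map_penC6, map_discAB]
        rw [h4, h6]; exact φ₀.mem x y h }
  have key := galoisTrace_eq_of_coordMap hd hd' φ
    (fun τ x => by simp [φ, φ₀, antiMap, antiN, antiM, antiW, discAB, ι, map_ofNat])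
    (fun τ x y => by
      simp [φ, φ₀, antiMap, antiM, antiW, antiS, penC4, discAB, ι, map_ofNat]) σ
  have e' : shortE A' B' = shortE ((288 * lam * W.Δ : ℚ) ^ 4 * W'.c₄)
      ((288 * lam * W.Δ : ℚ) ^ 6 * W'.c₆) := by
    have e₄ : (lam : ℚ) ^ 4 * W.Δ * W'.c₄ = -3 * penD a b (u : ℚ) v := by
      have := congrArg (Int.cast : ℤ → ℚ) h₄
      push_cast [penD] at this
      simpa [penD, a, b] using this
    have e₆ : 8 * (lam : ℚ) ^ 6 * W.Δ ^ 2 * W'.c₆ = -penC6 a b (u : ℚ) v := by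
      have := congrArg (Int.cast : ℤ → ℚ) h₆
      push_cast [penC6] at this
      simpa [penC6, a, b] using this
    congr 1
    · rw [hA', hdΔ]
      linear_combination (-(288 : ℚ) ^ 4 * W.Δ ^ 3) * e₄
    · rw [hB', hdΔ]
      linear_combination (-(288 : ℚ) ^ 6 / 8 * W.Δ ^ 4) * e₆
  rw [← galoisTrace_shortE W, ← galoisTrace_shortE W', ← galoisTrace_shortE_scale (W'.c₄ : ℚ)
    (W'.c₆ : ℚ) (288 * lam * W.Δ)
    (mul_ne_zero (mul_ne_zero (by norm_num) (by exact_mod_cast hlam)) (by exact_mod_cast hΔ)), ← e']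
  exact key

end Fermat.Agent.SwitchThree
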