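import Fermat.Agent.SmallDescent.GaloisLine
import Fermat.Agent.ECTorsion.Galois
import Mathlib.NumberTheory.LegendreSymbol.QuadraticReciprocity

/-!
# Irreducibility modulo five from a good prime dividing `c₄`

A good prime `l ≥ 3` dividing `c₄` which is inert in `ℚ(√5)` or equal to `5` makes the
representation modulo five irreducible.
-/

set_option autoImplicit false

open WeierstrassCurve

namespace Fermat.Agent.SwitchThree

/-- Two and three are nonsquares modulo five. -/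
lemma not_isSquare_two_three : ¬ IsSquare ((2 : ℕ) : ZMod 5) ∧ ¬ IsSquare ((3 : ℕ) : ZMod 5) := by
  decide

/-- The level five relation has no solution in coprime integers at such a prime. -/
lemma levelFive_no_solution {c d a b : ℤ} {l : ℕ} (hl : l.Prime) (hl3 : 3 ≤ l)
    (h5 : l = 5 ∨ l % 5 = 2 ∨ l % 5 = 3) (hd : ¬ (l : ℤ) ∣ d) (hc : (l : ℤ) ∣ c)
    (hab : IsCoprime a b)
    (h : c ^ 3 * (a * b ^ 5) = d * (a ^ 2 + 10 * a * b + 5 * b ^ 2) ^ 3) : False := by
  have hl' := Nat.prime_iff_prime_int.1 hl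
  set Q := a ^ 2 + 10 * a * b + 5 * b ^ 2 with hQ
  have hdvd : (l : ℤ) ∣ Q := by
    have : (l : ℤ) ∣ d * Q ^ 3 := h ▸ (dvd_pow hc three_ne_zero).mul_right _
    exact hl'.dvd_of_dvd_pow ((hl'.dvd_mul.1 this).resolve_left hd)
  have hb : ¬ (l : ℤ) ∣ b := fun hb => by
    have h1 : (l : ℤ) ∣ a ^ 2 := by
      have := dvd_sub hdvd (dvd_mul_of_dvd_left hb (10 * a + 5 * b))
      rwa [hQ, show a ^ 2 + 10 * a * b + 5 * b ^ 2 - b * (10 * a + 5 * b) = a ^ 2 by ring] at this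
    exact hl'.not_isUnit (hab.isUnit_of_dvd' (hl'.dvd_of_dvd_pow h1) hb)
  by_cases hl5 : l = 5
  · subst hl5
    obtain ⟨γ, rfl⟩ := hc
    obtain ⟨α, rfl⟩ : (5 : ℤ) ∣ a := by
      refine hl'.dvd_of_dvd_pow (n := 2) ?_
      have := dvd_sub hdvd (dvd_mul_right (5 : ℤ) (2 * a * b + b ^ 2))
      rwa [hQ, show a ^ 2 + 10 * a * b + 5 * b ^ 2 - 5 * (2 * a * b + b ^ 2) = a ^ 2 by ring]
        at this
    set R := 5 * α ^ 2 + 10 * α * b + b ^ 2
    have h1 : d * R ^ 3 = 5 * (γ ^ 3 * α * b ^ 5) :=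
      mul_left_cancel₀ (show (125 : ℤ) ≠ 0 by norm_num) (by
        simp only [hQ, R] at h ⊢; push_cast at h; linear_combination -h)
    have h2 : (5 : ℤ) ∣ R := hl'.dvd_of_dvd_pow
      ((hl'.dvd_mul.1 (Dvd.intro _ h1.symm)).resolve_left hd)
    have h3 : (5 : ℤ) ∣ b ^ 2 := by
      have := dvd_sub h2 (dvd_mul_right (5 : ℤ) (α ^ 2 + 2 * α * b))
      rwa [show R - 5 * (α ^ 2 + 2 * α * b) = b ^ 2 by simp only [R]; ring] at this
    exact hb (hl'.dvd_of_dvd_pow h3)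
  · have : Fact l.Prime := ⟨hl⟩
    have : Fact (Nat.Prime 5) := ⟨by norm_num⟩
    have h2 : (2 : ZMod l) ≠ 0 := by
      rw [show (2 : ZMod l) = ((2 : ℕ) : ZMod l) by norm_num, Ne, ZMod.natCast_eq_zero_iff]
      exact fun h => by have := Nat.le_of_dvd two_pos h; omega
    have hb0 : (b : ZMod l) ≠ 0 := fun h => hb ((ZMod.intCast_zmod_eq_zero_iff_dvd b l).1 h)
    have hQ0 : ((a : ZMod l) ^ 2 + 10 * a * b + 5 * b ^ 2) = 0 := by
      have := (ZMod.intCast_zmod_eq_zero_iff_dvd Q l).2 hdvd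
      rw [hQ] at this
      push_cast at this
      exact this
    have hsq : IsSquare ((5 : ℕ) : ZMod l) :=
      ⟨((a : ZMod l) + 5 * b) / (2 * b), by
        field_simp
        push_cast
        linear_combination -hQ0⟩
    rw [← ZMod.exists_sq_eq_prime_iff_of_mod_four_eq_one (p := 5) (q := l) (by norm_num)
      (by omega), ← ZMod.natCast_mod] at hsq
    rcases h5.resolve_left hl5 with h | h <;> rw [h] at hsq
    · exact not_isSquare_two_three.1 hsq
    · exact not_isSquare_two_three.2 hsq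

/-- A good prime `l` which is `5` or inert in `ℚ(√5)` and divides `c₄` forces irreducibility of
the mod-5 representation. -/
theorem irreducible_five_of_dvd_c4 {W : WeierstrassCurve ℤ} {l : ℕ} (hl : l.Prime) (hl3 : 3 ≤ l)
    (h5 : l = 5 ∨ l % 5 = 2 ∨ l % 5 = 3) (hΔ : ¬ (l : ℤ) ∣ W.Δ) (hc : (l : ℤ) ∣ W.c₄) :
    W.ModRepIsIrreducible 5 := by
  by_contra hred
  have hΔ0 : W.Δ ≠ 0 := fun h => hΔ (h ▸ dvd_zero _)
  obtain ⟨s, hs⟩ := SmallDescent.exists_levelFive (W := W.map (Int.castRingHom ℚ))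
    (ECTorsion.card_torsionBy_int W hΔ0 (by norm_num : (5 : ℕ) ≠ 0)) hred
  simp only [map_c₄, map_Δ, eq_intCast] at hs
  refine levelFive_no_solution hl hl3 h5 hΔ hc (a := s.num) (b := (s.den : ℤ))
    (by rw [Int.isCoprime_iff_gcd_eq_one]; exact s.reduced) ?_
  have hb : ((s.den : ℤ) : ℚ) ≠ 0 := by exact_mod_cast s.den_nz
  have hq : s = (s.num : ℚ) / ((s.den : ℤ) : ℚ) := by exact_mod_cast s.num_div_den.symm
  generalize s.num = a at hq ⊢
  generalize (s.den : ℤ) = b at hq hb ⊢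
  subst hq
  field_simp at hs
  exact_mod_cast (by linear_combination hs :
    (W.c₄ : ℚ) ^ 3 * (a * b ^ 5) = W.Δ * ((a : ℚ) ^ 2 + 10 * a * b + 5 * b ^ 2) ^ 3)

end Fermat.Agent.SwitchThree
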