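import Fermat.Agent.ModelChange.Basic

/-!
# Integral models with prescribed invariants

Integral Weierstrass models with prescribed `c₄`, `c₆` and prescribed reductions at `2` and `3`,
local models at those two primes, and the resulting criterion for semistability.
-/

set_option autoImplicit false

open WeierstrassCurve

namespace Fermat.Agent.SwitchThree

/-- Models with the same reduction modulo `m` have congruent `c₄`, `c₆` and `Δ`. -/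
lemma dvd_c₄_c₆_sub {m : ℕ} {W V : WeierstrassCurve ℤ} (h : W.reductionMod m = V.reductionMod m) :
    (m : ℤ) ∣ W.c₄ - V.c₄ ∧ (m : ℤ) ∣ W.c₆ - V.c₆ ∧ (m : ℤ) ∣ W.Δ - V.Δ := by
  refine ⟨?_, ?_, ?_⟩
  all_goals rw [← ZMod.intCast_zmod_eq_zero_iff_dvd, Int.cast_sub, sub_eq_zero]
  · simpa [reductionMod] using congrArg WeierstrassCurve.c₄ h
  · simpa [reductionMod] using congrArg WeierstrassCurve.c₆ h
  · simpa [reductionMod] using congrArg WeierstrassCurve.Δ h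

lemma reductionMod_eq_of_dvd {m : ℕ} {W V : WeierstrassCurve ℤ} (h₁ : (m : ℤ) ∣ W.a₁ - V.a₁)
    (h₂ : (m : ℤ) ∣ W.a₂ - V.a₂) (h₃ : (m : ℤ) ∣ W.a₃ - V.a₃) (h₄ : (m : ℤ) ∣ W.a₄ - V.a₄)
    (h₆ : (m : ℤ) ∣ W.a₆ - V.a₆) : W.reductionMod m = V.reductionMod m := by
  have h : ∀ x y : ℤ, (m : ℤ) ∣ x - y → (x : ZMod m) = (y : ZMod m) := fun x y hd => by
    rw [← sub_eq_zero, ← Int.cast_sub]
    exact (ZMod.intCast_zmod_eq_zero_iff_dvd _ _).2 hd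
  ext <;> simp only [reductionMod, WeierstrassCurve.map, eq_intCast] <;> apply h <;> assumption

lemma reductionMod_of_dvd {d m : ℕ} {W V : WeierstrassCurve ℤ}
    (h : W.reductionMod m = V.reductionMod m) (hd : d ∣ m) :
    W.reductionMod d = V.reductionMod d := by
  have e : ∀ X : WeierstrassCurve ℤ,
      (X.reductionMod m).map (ZMod.castHom hd (ZMod d)) = X.reductionMod d := fun X => by
    rw [reductionMod, reductionMod, map_map]; congr 1; exact RingHom.ext_int _ _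
  rw [← e W, ← e V, h]

/-- A model with exact invariants `A`, `B` and the reductions of two local models at 2 and 3. -/
theorem exists_model_of_local (A B : ℤ) (W₂ W₃ : WeierstrassCurve ℤ)
    (hA₂ : 2 ^ 12 ∣ A - W₂.c₄) (hB₂ : 2 ^ 12 ∣ B - W₂.c₆) (hA₃ : 3 ^ 8 ∣ A - W₃.c₄)
    (hB₃ : 3 ^ 8 ∣ B - W₃.c₆) :
    ∃ W : WeierstrassCurve ℤ, W.c₄ = A ∧ W.c₆ = B ∧
      W.reductionMod 2 = W₂.reductionMod 2 ∧ W.reductionMod 3 = W₃.reductionMod 3 := by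
  have hco : IsCoprime (4096 : ℤ) 6561 := by
    rw [Int.isCoprime_iff_gcd_eq_one]; norm_num
  obtain ⟨u, v, huv⟩ := id hco
  obtain ⟨V, hV₂, hV₃⟩ : ∃ V : WeierstrassCurve ℤ, V.reductionMod 4096 = W₂.reductionMod 4096 ∧
      V.reductionMod 6561 = W₃.reductionMod 6561 := by
    have cr₂ : ∀ x y : ℤ, (4096 : ℤ) ∣ x + u * 4096 * (y - x) - x := fun x y =>
      ⟨u * (y - x), by ring⟩
    have cr₃ : ∀ x y : ℤ, (6561 : ℤ) ∣ x + u * 4096 * (y - x) - y := fun x y =>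
      ⟨v * (x - y), by linear_combination (y - x) * huv⟩
    exact ⟨⟨_, _, _, _, _⟩,
      reductionMod_eq_of_dvd (cr₂ _ W₃.a₁) (cr₂ _ W₃.a₂) (cr₂ _ W₃.a₃) (cr₂ _ W₃.a₄)
        (cr₂ _ W₃.a₆),
      reductionMod_eq_of_dvd (cr₃ W₂.a₁ _) (cr₃ W₂.a₂ _) (cr₃ W₂.a₃ _) (cr₃ W₂.a₄ _)
        (cr₃ W₂.a₆ _)⟩
  obtain ⟨e₄₂, e₆₂, -⟩ := dvd_c₄_c₆_sub hV₂
  obtain ⟨e₄₃, e₆₃, -⟩ := dvd_c₄_c₆_sub hV₃
  obtain ⟨k, hk⟩ : (26873856 : ℤ) ∣ A - V.c₄ := by
    rw [show (26873856 : ℤ) = 4096 * 6561 by norm_num]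
    refine hco.mul_dvd ?_ ?_
    · have := dvd_sub (show (4096 : ℤ) ∣ A - W₂.c₄ by simpa using hA₂) e₄₂
      simpa using this
    · have := dvd_sub (show (6561 : ℤ) ∣ A - W₃.c₄ by simpa using hA₃) e₄₃
      simpa using this
  obtain ⟨l, hl⟩ : (26873856 : ℤ) ∣ B - V.c₆ := by
    rw [show (26873856 : ℤ) = 4096 * 6561 by norm_num]
    refine hco.mul_dvd ?_ ?_
    · have := dvd_sub (show (4096 : ℤ) ∣ B - W₂.c₆ by simpa using hB₂) e₆₂
      simpa using this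
    · have := dvd_sub (show (6561 : ℤ) ∣ B - W₃.c₆ by simpa using hB₃) e₆₃
      simpa using this
  -- `26873856 = 48 * 559872`, and `26873856 = 864 * 31104`
  let δ : ℤ := -559872 * k
  let ε : ℤ := -31104 * l + 46656 * (-1) * V.b₂ * k
  refine ⟨⟨V.a₁, V.a₂, V.a₃, V.a₄ + δ, V.a₆ + ε⟩, ?_, ?_, ?_, ?_⟩
  · simp only [WeierstrassCurve.c₄, WeierstrassCurve.b₂, WeierstrassCurve.b₄, δ] at hk ⊢
    linear_combination -hk
  · simp only [WeierstrassCurve.c₆, WeierstrassCurve.b₂, WeierstrassCurve.b₄, WeierstrassCurve.b₆,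
      δ, ε] at hl ⊢
    linear_combination -hl
  · rw [← reductionMod_of_dvd (d := 2) (m := 4096) hV₂ (by norm_num)]
    refine reductionMod_eq_of_dvd (by simp) (by simp) (by simp) ⟨-279936 * k, ?_⟩
      ⟨-15552 * l - 23328 * V.b₂ * k, ?_⟩ <;> simp only [δ, ε] <;> push_cast <;> ring
  · rw [← reductionMod_of_dvd (d := 3) (m := 6561) hV₃ (by norm_num)]
    refine reductionMod_eq_of_dvd (by simp) (by simp) (by simp) ⟨-186624 * k, ?_⟩
      ⟨-10368 * l - 15552 * V.b₂ * k, ?_⟩ <;> simp only [δ, ε] <;> push_cast <;> ring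

/-- A 2-adic local model for multiplicative or good ordinary reduction. -/
theorem exists_local_two (A B : ℤ) (hA : Odd A) (hB : 4 ∣ B + 1) (h : 64 ∣ A ^ 3 - B ^ 2) :
    ∃ W : WeierstrassCurve ℤ, Odd W.a₁ ∧ 2 ^ 12 ∣ A - W.c₄ ∧ 2 ^ 12 ∣ B - W.c₆ := by
  obtain ⟨u, v, huv⟩ : IsCoprime A ((2 : ℤ) ^ 20) :=
    ((Int.isCoprime_iff_gcd_eq_one).2 (by
      simpa [Int.gcd, Int.natAbs] using (Int.natAbs_odd.2 hA).coprime_two_right)).pow_right
  set b := -B * u with hb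
  have hbA : b * A + B = B * v * 2 ^ 20 := by rw [hb]; linear_combination -B * huv
  obtain ⟨a₂, ha₂⟩ : (4 : ℤ) ∣ b - 1 := by
    have hA1 : A % 4 = 1 := by
      have h4 : (4 : ℤ) ∣ A ^ 3 - B ^ 2 := dvd_trans (by norm_num) h
      obtain ⟨r, hr⟩ := hA
      obtain ⟨s, hs⟩ := hB
      obtain ⟨w, hw⟩ := h4
      rw [show B = 4 * s - 1 by omega, hr,
        show (2 * r + 1) ^ 3 - (4 * s - 1) ^ 2
          = 4 * (2 * r ^ 3 + 3 * r ^ 2 + r - 4 * s ^ 2 + 2 * s) + 2 * r by ring] at hw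
      omega
    have h1 : (4 : ℤ) ∣ b * A - 1 := by
      obtain ⟨s, hs⟩ := hB
      exact ⟨B * v * 2 ^ 18 - s, by linear_combination hbA - hs⟩
    obtain ⟨s, hs⟩ := h1
    obtain ⟨r, hr⟩ : (4 : ℤ) ∣ A - 1 := by omega
    exact ⟨s - b * r, by linear_combination hs - b * hr⟩
  -- `b ^ 2 - A` is divisible by `64`
  obtain ⟨Y, hY⟩ : (64 : ℤ) ∣ b ^ 2 - A := by
    have h1 : (64 : ℤ) ∣ A ^ 2 * (b ^ 2 - A) := by
      obtain ⟨w, hw⟩ := h
      exact ⟨-w + B * v * 2 ^ 14 * (b * A - B), by linear_combination (b * A - B) * hbA - hw⟩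
    have hco : IsCoprime (64 : ℤ) (A ^ 2) := by
      have : IsCoprime A ((2 : ℤ) ^ 20) := ⟨u, v, huv⟩
      exact ((this.of_isCoprime_of_dvd_right (by norm_num)).symm).pow_right
    exact hco.dvd_of_dvd_mul_left h1
  set a₄ := 4 * Y * 699051 with ha₄
  obtain ⟨D, hD⟩ : (32 : ℤ) ∣ -b ^ 3 + 72 * b * a₄ - B := by
    have h2 : (64 : ℤ) ∣ 2 * (-b ^ 3 + 72 * b * a₄ - B) := by
      refine ⟨b * Y + 3 * b * (4 * Y * 699051 * 48 / 64 - Y) - 2 * B * v * 2 ^ 14, ?_⟩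
      rw [show 4 * Y * 699051 * 48 / 64 = Y * 2097153 by omega, ha₄]
      linear_combination -2 * b * hY - 2 * hbA
    omega
  refine ⟨⟨1, a₂, 0, a₄, D * 2579⟩, odd_one, ?_, ?_⟩
  · refine ⟨Y * 32768, ?_⟩
    simp only [WeierstrassCurve.c₄, WeierstrassCurve.b₂, WeierstrassCurve.b₄]
    rw [ha₄, show (1 : ℤ) ^ 2 + 4 * a₂ = b by linear_combination -ha₂]
    linear_combination -hY
  · refine ⟨D * 544, ?_⟩
    simp only [WeierstrassCurve.c₆, WeierstrassCurve.b₂, WeierstrassCurve.b₄, WeierstrassCurve.b₆]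
    rw [show (1 : ℤ) ^ 2 + 4 * a₂ = b by linear_combination -ha₂]
    linear_combination -hD

lemma trace_ne_zero_three (V : WeierstrassCurve (ZMod 3)) (h₁ : V.a₁ = 0) (h₂ : V.a₂ = 0)
    (h₃ : V.a₃ = 0) (h₄ : V.a₄ = 2) (h₆ : V.a₆ ≠ 0) : V.traceOfFrobenius ≠ 0 := by
  have hΔ : V.Δ ≠ 0 := by
    simp only [WeierstrassCurve.Δ, WeierstrassCurve.b₂, WeierstrassCurve.b₄, WeierstrassCurve.b₆,
      WeierstrassCurve.b₈, h₁, h₂, h₃, h₄]
    generalize V.a₆ = x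
    revert x
    decide
  intro ht
  rw [traceOfFrobenius, WeierstrassCurve.card,
    Nat.card_congr (ModelChange.pointEquivOption V.toAffine hΔ), Finite.card_option,
    Nat.card_zmod] at ht
  have hcard : Nat.card {z : ZMod 3 × ZMod 3 // V.toAffine.Equation z.1 z.2} = 3 := by omega
  rw [Nat.card_congr (Equiv.subtypeEquivRight
    (q := fun z : ZMod 3 × ZMod 3 => z.2 ^ 2 = z.1 ^ 3 + 2 * z.1 + V.a₆)
    (fun z => by rw [Affine.equation_iff, h₁, h₂, h₃, h₄]; simp)), Nat.card_eq_fintype_card,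
    Fintype.card_subtype] at hcard
  generalize V.a₆ = x at hcard h₆
  revert x
  decide

/-- A 3-adic local model with good reduction and trace `±3`. -/
theorem exists_local_three (A B : ℤ) (hA : 9 ∣ A - 3) (hB : 27 ∣ B) (hB3 : ¬ 81 ∣ B) :
    ∃ W : WeierstrassCurve ℤ, 3 ^ 8 ∣ A - W.c₄ ∧ 3 ^ 8 ∣ B - W.c₆ ∧ ¬ (3 : ℤ) ∣ W.Δ ∧
      W.apOfModel 3 ≠ 0 := by
  obtain ⟨A', rfl⟩ : (3 : ℤ) ∣ A := by omega
  obtain ⟨B', rfl⟩ := hB
  refine ⟨⟨0, 0, 0, -A' * 6151, -B' * 6356⟩, ⟨-A' * 45, ?_⟩, ⟨-B' * 837, ?_⟩, ?_, ?_⟩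
  · simp [WeierstrassCurve.c₄, WeierstrassCurve.b₂, WeierstrassCurve.b₄]; ring
  · simp [WeierstrassCurve.c₆, WeierstrassCurve.b₂, WeierstrassCurve.b₄, WeierstrassCurve.b₆]
    ring
  · rw [show (3 : ℤ) = ((3 : ℕ) : ℤ) by norm_num, ← ZMod.intCast_zmod_eq_zero_iff_dvd]
    have h1 : (A' : ZMod 3) = 1 := by
      have : (3 : ℤ) ∣ A' - 1 := by omega
      have h := (ZMod.intCast_zmod_eq_zero_iff_dvd _ 3).2 this
      push_cast at h
      exact sub_eq_zero.1 h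
    simp [WeierstrassCurve.Δ, WeierstrassCurve.b₂, WeierstrassCurve.b₄, WeierstrassCurve.b₆,
      WeierstrassCurve.b₈, h1]
    generalize (B' : ZMod 3) = x
    revert x
    decide
  · refine trace_ne_zero_three _ ?_ ?_ ?_ ?_ ?_ <;> simp only [reductionMod, map_a₁, map_a₂,
      map_a₃, map_a₄, map_a₆, eq_intCast, Int.cast_zero]
    · rw [show (2 : ZMod 3) = ((2 : ℤ) : ZMod 3) by norm_num, ← sub_eq_zero, ← Int.cast_sub,
        ZMod.intCast_zmod_eq_zero_iff_dvd]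
      omega
    · rw [Ne, ZMod.intCast_zmod_eq_zero_iff_dvd]
      omega

/-- Semistability from the reductions at 2 and 3 and coprimality of `c₄`, `c₆` elsewhere. -/
theorem semistable_of_local (W W₂ W₃ : WeierstrassCurve ℤ)
    (h₂ : W.reductionMod 2 = W₂.reductionMod 2) (h₃ : W.reductionMod 3 = W₃.reductionMod 3)
    (s₂ : ¬ ((2 : ℤ) ∣ W₂.Δ ∧ (2 : ℤ) ∣ W₂.c₄)) (s₃ : ¬ ((3 : ℤ) ∣ W₃.Δ ∧ (3 : ℤ) ∣ W₃.c₄))
    (hq : ∀ q : ℕ, q.Prime → 5 ≤ q → ¬ ((q : ℤ) ∣ W.c₄ ∧ (q : ℤ) ∣ W.c₆)) :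
    W.IsSemistableModel := by
  intro q hqp hΔ hc
  obtain h | h | h : q = 2 ∨ q = 3 ∨ 5 ≤ q := by
    by_contra h
    push Not at h
    have : q = 4 := by have := hqp.two_le; omega
    subst this; norm_num at hqp
  · subst h
    obtain ⟨e₄, -, eΔ⟩ := dvd_c₄_c₆_sub h₂
    exact s₂ ⟨(dvd_sub_right hΔ).1 eΔ, (dvd_sub_right hc).1 e₄⟩
  · subst h
    obtain ⟨e₄, -, eΔ⟩ := dvd_c₄_c₆_sub h₃
    exact s₃ ⟨(dvd_sub_right hΔ).1 eΔ, (dvd_sub_right hc).1 e₄⟩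
  · refine hq q hqp h ⟨hc, (Nat.prime_iff_prime_int.1 hqp).dvd_of_dvd_pow (n := 2) ?_⟩
    have e : W.c₆ ^ 2 = W.c₄ ^ 3 - 1728 * W.Δ := by rw [W.c_relation]; ring
    rw [e]
    exact dvd_sub (dvd_pow hc three_ne_zero) (dvd_mul_of_dvd_right hΔ _)

end Fermat.Agent.SwitchThree
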