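import Fermat.Agent.SwitchThree.Algebra
import Fermat.Agent.Switches.Reducible
import Fermat.Prelude.Def_FLTPrelim_Modularity

/-!
# Local properties of members of the pencils

The covariants respect congruences, have no common zero at primes `≥ 5` of good reduction, take
explicit values at `(-c₆ : c₄)`; and supersingular reduction at three is read on `c₄`, `c₆`.
-/

set_option autoImplicit false

open WeierstrassCurve

namespace Fermat.Agent.SwitchThree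

/-- The covariants respect congruences. -/
theorem pen_congr {n u u' v v' : ℤ} (a b : ℤ) (hu : n ∣ u - u') (hv : n ∣ v - v') :
    n ∣ penC4 a b u v - penC4 a b u' v' ∧ n ∣ penC6 a b u v - penC6 a b u' v' ∧
      n ∣ penD a b u v - penD a b u' v' := by
  let f := Ideal.Quotient.mk (Ideal.span ({n} : Set ℤ))
  have key : ∀ {x y : ℤ}, n ∣ x - y ↔ f x = f y := fun {x y} => by
    rw [Ideal.Quotient.mk_eq_mk_iff_sub_mem, Ideal.mem_span_singleton]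
  rw [key] at hu hv
  simp only [key, map_penC4, map_penC6, map_penD, hu, hv, and_self]

/-- A bad prime of a semistable model does not divide `c₆`. -/
theorem semistable_not_dvd_c₆ {W : WeierstrassCurve ℤ} (hW : W.IsSemistableModel) {q : ℕ}
    (hq : q.Prime) (h : (q : ℤ) ∣ W.Δ) : ¬ (q : ℤ) ∣ W.c₆ := fun h6 => hW q hq h <| by
  have hp := Nat.prime_iff_prime_int.mp hq
  refine hp.dvd_of_dvd_pow (n := 3) ?_
  have e : W.c₄ ^ 3 = 1728 * W.Δ + W.c₆ * W.c₆ := by linear_combination -W.c_relation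
  rw [e]
  exact dvd_add (dvd_mul_of_dvd_right h _) (dvd_mul_of_dvd_right h6 _)

/-- A prime `≥ 5` does not divide `2ⁱ 3ʲ`. -/
theorem prime_not_dvd_of_factors {q : ℕ} (hq : q.Prime) (h5 : 5 ≤ q) (i j : ℕ) :
    ¬ (q : ℤ) ∣ (2 : ℤ) ^ i * 3 ^ j := by
  intro h
  have hp := Nat.prime_iff_prime_int.mp hq
  rcases hp.dvd_or_dvd h with h | h
  · have := Nat.le_of_dvd (n := 2) (by norm_num)
      (Int.natCast_dvd_natCast.mp (by exact_mod_cast hp.dvd_of_dvd_pow h))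
    omega
  · have := Nat.le_of_dvd (n := 3) (by norm_num)
      (Int.natCast_dvd_natCast.mp (by exact_mod_cast hp.dvd_of_dvd_pow h))
    omega

/-- `c₄³ - c₆²` is prime to the primes `≥ 5` of good reduction. -/
theorem not_dvd_discAB {W : WeierstrassCurve ℤ} {q : ℕ} (hq : q.Prime) (h5 : 5 ≤ q)
    (hΔ : ¬ (q : ℤ) ∣ W.Δ) : ¬ (q : ℤ) ∣ discAB W.c₄ W.c₆ := by
  rw [show discAB W.c₄ W.c₆ = (2 : ℤ) ^ 6 * 3 ^ 3 * W.Δ by
    rw [discAB, ← W.c_relation]; norm_num]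
  exact fun h => ((Nat.prime_iff_prime_int.mp hq).dvd_or_dvd h).elim
    (prime_not_dvd_of_factors hq h5 6 3) hΔ

/-- Away from the base discriminant the forms have no common zero. -/
theorem no_common_zero {W : WeierstrassCurve ℤ} {q : ℕ} (hq : q.Prime) (h5 : 5 ≤ q)
    (hΔ : ¬ (q : ℤ) ∣ W.Δ) {u v : ℤ} (huv : ¬ ((q : ℤ) ∣ u ∧ (q : ℤ) ∣ v)) :
    ¬ ((q : ℤ) ∣ penC4 W.c₄ W.c₆ u v ∧ (q : ℤ) ∣ penD W.c₄ W.c₆ u v) := by
  rintro ⟨hC, hD⟩
  have : Fact q.Prime := ⟨hq⟩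
  have hp := Nat.prime_iff_prime_int.mp hq
  have e : ∀ x : ℤ, (x : ZMod q) = 0 ↔ (q : ℤ) ∣ x := fun x =>
    ZMod.intCast_zmod_eq_zero_iff_dvd x q
  let f := Int.castRingHom (ZMod q)
  have h23 : ∀ x : ℤ, ¬ (q : ℤ) ∣ x → f x ≠ 0 := fun x hx h => hx ((e x).mp h)
  have hd : discAB (f W.c₄) (f W.c₆) ≠ 0 := by
    rw [← map_discAB]
    exact h23 _ (not_dvd_discAB hq h5 hΔ)
  refine penC4_or_penD_ne_zero (a := f W.c₄) (b := f W.c₆) (u := f u) (v := f v) ?_ ?_ hd ?_ ?_ ?_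
  · simpa using h23 3 (by simpa using prime_not_dvd_of_factors hq h5 0 1)
  · simpa using h23 2 (by simpa using prime_not_dvd_of_factors hq h5 1 0)
  · by_contra! h
    exact huv ⟨(e u).mp h.1, (e v).mp h.2⟩
  · rw [← map_penD]; exact (e _).mpr hD
  · rw [← map_penC4]; exact (e _).mpr hC

/-- The value of `penD` at `(-c₆ : c₄)`. -/
theorem penD_neg_c₆_c₄ (W : WeierstrassCurve ℤ) :
    penD W.c₄ W.c₆ (-W.c₆) W.c₄ = -(1728 * W.Δ * (4 * W.c₆ ^ 2 + 5184 * W.Δ)) := by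
  simp only [penD]
  linear_combination (3 * W.c₄ ^ 3 + W.c₆ ^ 2 + 5184 * W.Δ) * W.c_relation

/-- The value of `penC6` at `(-c₆ : c₄)`. -/
theorem penC6_neg_c₆_c₄ (W : WeierstrassCurve ℤ) :
    penC6 W.c₄ W.c₆ (-W.c₆) W.c₄ =
      -((1728 * W.Δ) ^ 2 * W.c₆ * (8 * W.c₆ ^ 2 + 15552 * W.Δ)) := by
  simp only [penC6]
  linear_combination (9 * W.c₆ * ((W.c₄ ^ 3 - W.c₆ ^ 2) ^ 2
    + (W.c₄ ^ 3 - W.c₆ ^ 2) * (1728 * W.Δ) + (1728 * W.Δ) ^ 2)
    + 8 * W.c₆ ^ 3 * (W.c₄ ^ 3 - W.c₆ ^ 2 + 1728 * W.Δ)) * W.c_relation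

/-- Supersingular reduction at three, read on the invariants. -/
theorem supersingular_three {W : WeierstrassCurve ℤ} (hΔ : ¬ (3 : ℤ) ∣ W.Δ)
    (h : W.apOfModel 3 = 0) :
    ∃ c c' : ℤ, W.c₄ = 3 * c ∧ W.c₆ = 27 * c' ∧ (3 : ℤ) ∣ c - W.Δ := by
  have hΔ3 : (W.reductionMod 3).Δ ≠ 0 := by
    rw [reductionMod, map_Δ, eq_intCast]
    exact fun e => hΔ ((ZMod.intCast_zmod_eq_zero_iff_dvd _ _).1 e)
  have hb := Switches.b₂_eq_zero_of_trace_eq_zero _ hΔ3 h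
  rw [reductionMod, map_b₂, eq_intCast] at hb
  obtain ⟨β, hβ⟩ := (ZMod.intCast_zmod_eq_zero_iff_dvd _ 3).1 hb
  push_cast at hβ
  obtain ⟨c, hc⟩ : ∃ c, W.c₄ = 3 * c :=
    ⟨3 * β ^ 2 - 8 * W.b₄, by rw [WeierstrassCurve.c₄, hβ]; ring⟩
  obtain ⟨c', hc'⟩ : ∃ c', W.c₆ = 27 * c' :=
    ⟨-β ^ 3 + 4 * β * W.b₄ - 8 * W.b₆, by rw [WeierstrassCurve.c₆, hβ]; ring⟩
  have e : 64 * W.Δ = c ^ 3 - 27 * c' ^ 2 := by
    have := W.c_relation
    rw [hc, hc'] at this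
    linarith
  refine ⟨c, c', hc, hc', (ZMod.intCast_zmod_eq_zero_iff_dvd _ 3).1 ?_⟩
  have := congrArg (Int.cast : ℤ → ZMod 3) e
  push_cast at this
  push_cast
  have k : ∀ x y z : ZMod 3, 64 * x = y ^ 3 - 27 * z ^ 2 → y - x = 0 := by decide
  exact k _ _ _ this

end Fermat.Agent.SwitchThree
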