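import Fermat.Agent.ModularityGlue.AuxiliarySwitch
import Fermat.Agent.SwitchThree.Congruence
import Fermat.Agent.SwitchThree.Choice
import Fermat.Agent.SwitchThree.Params
import Fermat.Agent.SwitchThree.IrreducibleFive
import Fermat.Agent.SwitchThree.Models

/-!
# The switch at three to a curve irreducible at five

Every semistable curve is congruent modulo three to a semistable curve irreducible at five with
nonzero trace at three: a member of the direct pencil, or of the anti-symplectic one when the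
curve is supersingular at three with `c₄ / 3 ≡ -1 mod 3`. The parameter is chosen by congruences
at `2`, `3`, the bad primes and one auxiliary prime.
-/

set_option autoImplicit false

open WeierstrassCurve

namespace Fermat.Agent.SwitchThree

/-- Models with the same reduction modulo `p` have `p ∣ Δ` at the same time. -/
theorem dvd_Δ_iff_of_reductionMod {V V' : WeierstrassCurve ℤ} {p : ℕ}
    (h : V.reductionMod p = V'.reductionMod p) : (p : ℤ) ∣ V.Δ ↔ (p : ℤ) ∣ V'.Δ := by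
  have e := congrArg WeierstrassCurve.Δ h
  rw [reductionMod, reductionMod, map_Δ, map_Δ, eq_intCast, eq_intCast] at e
  rw [← ZMod.intCast_zmod_eq_zero_iff_dvd, ← ZMod.intCast_zmod_eq_zero_iff_dvd, e]

theorem apOfModel_eq_of_reductionMod {V V' : WeierstrassCurve ℤ} {p : ℕ}
    (h : V.reductionMod p = V'.reductionMod p) : V.apOfModel p = V'.apOfModel p := by
  rw [apOfModel, h, apOfModel]

theorem isCoprime_of_not_dvd {ℓ : ℕ} (hℓ : ℓ.Prime) {M : ℤ} (h : ¬ (ℓ : ℤ) ∣ M) :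
    IsCoprime M (ℓ : ℤ) :=
  ((Nat.prime_iff_prime_int.mp hℓ).coprime_iff_not_dvd.mpr h).symm

theorem not_dvd_mul_pow {ℓ : ℕ} (hℓ : ℓ.Prime) {x : ℤ} {n : ℕ} (h : ¬ (ℓ : ℤ) ∣ x) :
    ¬ (ℓ : ℤ) ∣ x ^ n :=
  fun h' => h ((Nat.prime_iff_prime_int.mp hℓ).dvd_of_dvd_pow h')

/-- No prime divides both of two coprime integers. -/
theorem not_dvd_both_of_isCoprime {q : ℕ} (hq : q.Prime) {u v : ℤ} (h : IsCoprime u v) :
    ¬ ((q : ℤ) ∣ u ∧ (q : ℤ) ∣ v) :=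
  fun ⟨hu, hv⟩ => (Nat.prime_iff_prime_int.mp hq).not_isUnit (h.isUnit_of_dvd' hu hv)

/-- No prime `≥ 5` divides both invariants of a member of the direct pencil. -/
theorem direct_semistable_aux {W : WeierstrassCurve ℤ} (hW : W.IsSemistableModel) {u v : ℤ}
    (huv : IsCoprime u v) (hu : W.Δ ∣ u - 1) (hv : W.Δ ∣ v) (q : ℕ) (hq : q.Prime) (h5 : 5 ≤ q) :
    ¬ ((q : ℤ) ∣ penC4 W.c₄ W.c₆ u v ∧ (q : ℤ) ∣ penC6 W.c₄ W.c₆ u v) := by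
  rintro ⟨h₄, h₆⟩
  by_cases hqΔ : (q : ℤ) ∣ W.Δ
  · refine hW q hq hqΔ ?_
    have h := (pen_congr W.c₄ W.c₆ (hqΔ.trans hu)
      (show (q : ℤ) ∣ v - 0 by simpa using hqΔ.trans hv)).1
    rw [penC4_one_zero] at h
    simpa using dvd_sub h₄ h
  · refine no_common_zero hq h5 hqΔ (not_dvd_both_of_isCoprime hq huv) ⟨h₄, ?_⟩
    have hp := Nat.prime_iff_prime_int.mp hq
    refine hp.dvd_of_dvd_pow (n := 3)
      ((hp.dvd_or_dvd (a := discAB W.c₄ W.c₆) ?_).resolve_left (not_dvd_discAB hq h5 hqΔ))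
    rw [← penC4_cube_sub]
    exact dvd_sub (dvd_pow h₄ three_ne_zero) (dvd_pow h₆ two_ne_zero)

/-- The discriminant of a member of the direct pencil. -/
theorem direct_Δ {W W' : WeierstrassCurve ℤ} {u v : ℤ}
    (h₄ : W'.c₄ = penC4 W.c₄ W.c₆ u v) (h₆ : W'.c₆ = penC6 W.c₄ W.c₆ u v) :
    W'.Δ = W.Δ * penD W.c₄ W.c₆ u v ^ 3 := by
  have e := W'.c_relation
  rw [h₄, h₆, show penC4 W.c₄ W.c₆ u v ^ 3 - penC6 W.c₄ W.c₆ u v ^ 2 =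
    discAB W.c₄ W.c₆ * penD W.c₄ W.c₆ u v ^ 3 from penC4_cube_sub .., discAB_c₄_c₆] at e
  linarith

/-- The cusp quartic does not vanish at `(u : v) ≡ (1 : 0) mod 2`. -/
theorem direct_penD_ne_zero {W : WeierstrassCurve ℤ} {u v : ℤ} (hu : 2 ∣ u - 1) (hv : 2 ∣ v) :
    penD W.c₄ W.c₆ u v ≠ 0 := by
  intro h
  have h' := (pen_congr W.c₄ W.c₆ hu (show (2 : ℤ) ∣ v - 0 by simpa using hv)).2.2
  rw [h, penD_one_zero] at h'
  norm_num at h'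

/-- A prime giving irreducibility at five in the direct pencil. -/
theorem exists_obstruction {W : WeierstrassCurve ℤ} (hΔ : W.Δ ≠ 0) (hW : W.IsSemistableModel) :
    ∃ (ℓ : ℕ) (u v : ℤ), ℓ.Prime ∧ 3 ≤ ℓ ∧ (ℓ = 5 ∨ ℓ % 5 = 2 ∨ ℓ % 5 = 3) ∧
      ¬ (ℓ : ℤ) ∣ 6 * W.Δ ∧ ¬ ((ℓ : ℤ) ∣ u ∧ (ℓ : ℤ) ∣ v) ∧
      (ℓ : ℤ) ∣ penC4 W.c₄ W.c₆ u v ∧ ¬ (ℓ : ℤ) ∣ penD W.c₄ W.c₆ u v := by
  by_cases h5 : (5 : ℤ) ∣ W.c₄
  · refine ⟨5, 1, 0, by norm_num, by norm_num, Or.inl rfl, fun h => ?_, by simp,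
      by simpa [penC4_one_zero] using h5, by simp [penD_one_zero]⟩
    have hp : Prime (5 : ℤ) := Int.prime_iff_natAbs_prime.mpr (by norm_num)
    rcases hp.dvd_or_dvd (by exact_mod_cast h : (5 : ℤ) ∣ 6 * W.Δ) with h | h
    · norm_num at h
    · exact hW 5 (by norm_num) (by exact_mod_cast h) (by exact_mod_cast h5)
  · have hc : W.c₄ ≠ 0 := fun h => h5 (h ▸ dvd_zero _)
    obtain ⟨ℓ, u, v, hℓ, hmod, hK, hC, hv⟩ :=
      exists_prime_zero (a := W.c₄) (b := W.c₆) (K := 30 * W.Δ) (mul_ne_zero (by norm_num) hΔ) hc h5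
    have h2 : ℓ ≠ 2 := by
      rintro rfl
      exact hK (dvd_mul_of_dvd_left (by norm_num) _)
    have h3 : 3 ≤ ℓ := by have := hℓ.two_le; omega
    have h3' : ℓ ≠ 3 := by
      rintro rfl
      exact hK (dvd_mul_of_dvd_left (by norm_num) _)
    have hℓ5 : 5 ≤ ℓ := by
      rcases Nat.lt_or_ge ℓ 5 with h | h
      · interval_cases ℓ <;> simp_all +decide
      · exact h
    have h6 : ¬ (ℓ : ℤ) ∣ 6 * W.Δ := fun h => hK (by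
      rw [show 30 * W.Δ = 5 * (6 * W.Δ) by ring]; exact dvd_mul_of_dvd_right h _)
    exact ⟨ℓ, u, v, hℓ, h3, Or.inr hmod, h6, fun h => hv h.2, hC, fun hD =>
      no_common_zero hℓ hℓ5 (fun h => h6 (dvd_mul_of_dvd_right h _)) (fun h => hv h.2) ⟨hC, hD⟩⟩

/-- The switch when the trace at three is nonzero. -/
theorem switch_of_nonzeroTrace {W : WeierstrassCurve ℤ} (hΔ : W.Δ ≠ 0) (hW : W.IsSemistableModel)
    (htr : ModularityGlue.NonzeroTraceAtThree W) :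
    ∃ W' : WeierstrassCurve ℤ, W'.Δ ≠ 0 ∧ W'.IsSemistableModel ∧ W'.ModRepIsIrreducible 5 ∧
      ModularityGlue.NonzeroTraceAtThree W' ∧
      ∀ ℓ : ℕ, ℓ.Prime → W.IsGoodPrimeFor ℓ → W'.IsGoodPrimeFor ℓ → ℓ ≠ 3 →
        (3 : ℤ) ∣ (W'.apOfModel ℓ - W.apOfModel ℓ) := by
  obtain ⟨ℓ, u₁, v₁, hℓ, h3, hmod, hℓ6, huv₁, hC₁, hD₁⟩ := exists_obstruction hΔ hW
  set M : ℤ := 2 ^ 12 * 3 ^ 8 * W.Δ with hM
  have hℓM : ¬ (ℓ : ℤ) ∣ M := by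
    intro h
    have hp := Nat.prime_iff_prime_int.mp hℓ
    rcases hp.dvd_or_dvd h with h | h
    · rcases hp.dvd_or_dvd h with h | h <;>
        exact hℓ6 (dvd_mul_of_dvd_left ((hp.dvd_of_dvd_pow h).trans (by norm_num)) _)
    · exact hℓ6 (dvd_mul_of_dvd_right h _)
  obtain ⟨x₀, hx₀, hx₁⟩ := exists_crt (isCoprime_of_not_dvd hℓ hℓM) 1 u₁
  obtain ⟨y₀, hy₀, hy₁⟩ := exists_crt (isCoprime_of_not_dvd hℓ hℓM) 0 v₁
  have hM0 : M ≠ 0 := mul_ne_zero (by norm_num) hΔ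
  obtain ⟨u, v, huv, hu, hv⟩ := exists_coprime_lift (M := M * ℓ)
    (mul_ne_zero hM0 (by exact_mod_cast hℓ.ne_zero)) (u₀ := x₀) (v₀ := y₀) (by
      intro p hp hd ⟨hpu, hpv⟩
      have hp' := Nat.prime_iff_prime_int.mp hp
      rcases hp'.dvd_or_dvd hd with h | h
      · exact hp'.not_dvd_one (by simpa using dvd_sub hpu (h.trans hx₀))
      · obtain rfl : p = ℓ :=
          (Nat.prime_dvd_prime_iff_eq hp hℓ).mp (Int.natCast_dvd_natCast.mp h)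
        exact huv₁ ⟨(dvd_sub_right hpu).mp hx₁, (dvd_sub_right hpv).mp hy₁⟩)
  have hu1 : M ∣ u - 1 := by simpa using dvd_add ((dvd_mul_right M _).trans hu) hx₀
  have hv1 : M ∣ v - 0 := by simpa using dvd_add ((dvd_mul_right M _).trans hv) hy₀
  have huℓ : (ℓ : ℤ) ∣ u - u₁ := by simpa using dvd_add ((dvd_mul_left _ M).trans hu) hx₁
  have hvℓ : (ℓ : ℤ) ∣ v - v₁ := by simpa using dvd_add ((dvd_mul_left _ M).trans hv) hy₁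
  obtain ⟨c4, c6, -⟩ := pen_congr W.c₄ W.c₆ hu1 hv1
  rw [penC4_one_zero] at c4
  rw [penC6_one_zero] at c6
  have m2 : (2 : ℤ) ^ 12 ∣ M := dvd_mul_of_dvd_left (dvd_mul_right _ _) _
  have m3 : (3 : ℤ) ^ 8 ∣ M := dvd_mul_of_dvd_left (dvd_mul_left _ _) _
  have mΔ : W.Δ ∣ M := dvd_mul_left _ _
  obtain ⟨W', hc₄, hc₆, hr₂, hr₃⟩ := exists_model_of_local _ _ W W
    (m2.trans c4) (m2.trans c6) (m3.trans c4) (m3.trans c6)
  have hv0 : M ∣ v := by simpa using hv1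
  have hD0 : penD W.c₄ W.c₆ u v ≠ 0 :=
    direct_penD_ne_zero (((dvd_pow_self 2 (by norm_num)).trans m2).trans hu1)
      (((dvd_pow_self 2 (by norm_num)).trans m2).trans hv0)
  have hΔ' := direct_Δ hc₄ hc₆
  have hss : W'.IsSemistableModel := semistable_of_local W' W W hr₂ hr₃
    (fun h => hW 2 Nat.prime_two h.1 h.2) (fun h => hW 3 Nat.prime_three h.1 h.2)
    (fun q hq hq5 => by
      rw [hc₄, hc₆]
      exact direct_semistable_aux hW huv (mΔ.trans hu1) (mΔ.trans hv0) q hq hq5)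
  refine ⟨W', by rw [hΔ']; exact mul_ne_zero hΔ (pow_ne_zero _ hD0), hss, ?_, ?_,
    fun q hq hg hg' hq3 => congruence_direct hΔ hD0 hc₄ hc₆ hq hg hg' hq3⟩
  · obtain ⟨e4, -, eD⟩ := pen_congr W.c₄ W.c₆ huℓ hvℓ
    refine irreducible_five_of_dvd_c4 hℓ h3 hmod ?_ (by rw [hc₄]; simpa using dvd_add e4 hC₁)
    rw [hΔ']
    intro h
    have hp := Nat.prime_iff_prime_int.mp hℓ
    rcases hp.dvd_or_dvd h with h | h
    · exact hℓ6 (dvd_mul_of_dvd_right h _)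
    · exact hD₁ (by simpa using dvd_sub (hp.dvd_of_dvd_pow h) eD)
  · rcases htr with h | h
    · exact Or.inl ((dvd_Δ_iff_of_reductionMod hr₃).mpr h)
    · exact Or.inr (by rwa [apOfModel_eq_of_reductionMod hr₃])

/-- For `3 ∣ c₄`, `27 ∣ c₆` and `u ≡ 1 mod 81`, `penC4 ≡ c₄ mod 9`. -/
theorem nine_dvd_penC4_sub {W : WeierstrassCurve ℤ} {c c' u v : ℤ} (hc : W.c₄ = 3 * c)
    (hc' : W.c₆ = 27 * c') (hu : 81 ∣ u - 1) :
    (9 : ℤ) ∣ penC4 W.c₄ W.c₆ u v - W.c₄ := by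
  obtain ⟨k, hk⟩ := hu
  obtain rfl : u = 81 * k + 1 := by linarith
  refine ⟨(3 * c) * 9 * k * ((81 * k + 1) ^ 3 + (81 * k + 1) ^ 2 + (81 * k + 1) + 1)
    + 12 * c' * (81 * k + 1) ^ 3 * v + 6 * c ^ 2 * (81 * k + 1) ^ 2 * v ^ 2
    + 36 * c * c' * (81 * k + 1) * v ^ 3 - 9 * c ^ 3 * v ^ 4 + 324 * c' ^ 2 * v ^ 4, ?_⟩
  simp only [penC4, hc, hc']
  ring

/-- At a supersingular three the parameter `(1 : σ)` makes `penC6` exactly divisible by `27`. -/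
theorem penC6_mod_eightyOne {W : WeierstrassCurve ℤ} {c c' σ u v : ℤ} (hc : W.c₄ = 3 * c)
    (hc' : W.c₆ = 27 * c') (_hσ : σ = 1 ∨ σ = -1) (hc3 : ¬ (3 : ℤ) ∣ c)
    (hσ' : ¬ (3 : ℤ) ∣ c' - σ) (hu : 81 ∣ u - 1) (hv : 81 ∣ v - σ) :
    (27 : ℤ) ∣ penC6 W.c₄ W.c₆ u v ∧ ¬ (81 : ℤ) ∣ penC6 W.c₄ W.c₆ u v := by
  have h := (pen_congr W.c₄ W.c₆ hu hv).2.1
  have e : penC6 W.c₄ W.c₆ 1 σ = 27 * (c' + 2 * c ^ 2 * σ) + 81 *
      (15 * c * c' * σ ^ 2 + 180 * c' ^ 2 * σ ^ 3 + 45 * c ^ 2 * c' * σ ^ 4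
        + (18 * c ^ 4 - 324 * c * c' ^ 2) * σ ^ 5 + (81 * c ^ 3 * c' - 1944 * c' ^ 3) * σ ^ 6) := by
    simp only [penC6, hc, hc']; ring
  rw [e] at h
  refine ⟨?_, fun h81 => hσ' ?_⟩
  · obtain ⟨k, hk⟩ := h
    exact ⟨3 * k + (c' + 2 * c ^ 2 * σ) + 3 * (15 * c * c' * σ ^ 2 + 180 * c' ^ 2 * σ ^ 3
      + 45 * c ^ 2 * c' * σ ^ 4 + (18 * c ^ 4 - 324 * c * c' ^ 2) * σ ^ 5
      + (81 * c ^ 3 * c' - 1944 * c' ^ 3) * σ ^ 6), by linarith⟩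
  · have h' : (81 : ℤ) ∣ 27 * (c' + 2 * c ^ 2 * σ) := by
      have := dvd_sub h81 h
      rw [sub_sub_cancel] at this
      exact (dvd_add_left (dvd_mul_right (81 : ℤ) _)).mp this
    have h'' : (3 : ℤ) ∣ c' + 2 * c ^ 2 * σ :=
      (mul_dvd_mul_iff_left (by norm_num : (27 : ℤ) ≠ 0)).mp (by norm_num; exact h')
    apply (ZMod.intCast_zmod_eq_zero_iff_dvd _ 3).1
    have h3 := (ZMod.intCast_zmod_eq_zero_iff_dvd _ 3).2 h''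
    have hc0 : (c : ZMod 3) ≠ 0 := fun h => hc3 ((ZMod.intCast_zmod_eq_zero_iff_dvd _ 3).1 h)
    push_cast at h3 ⊢
    have k : ∀ x y z : ZMod 3, z ≠ 0 → x + 2 * z ^ 2 * y = 0 → x - y = 0 := by decide
    exact k _ _ _ hc0 h3

/-- The switch at a supersingular three in the direct pencil. -/
theorem switch_direct {W : WeierstrassCurve ℤ} (hΔ : W.Δ ≠ 0) (hW : W.IsSemistableModel)
    (h3 : ¬ (3 : ℤ) ∣ W.Δ) {c c' σ : ℤ} (hc : W.c₄ = 3 * c) (hc' : W.c₆ = 27 * c')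
    (hσ : σ = 1 ∨ σ = -1) (hσ' : ¬ (3 : ℤ) ∣ c' - σ) (hc1 : (3 : ℤ) ∣ c - 1) :
    ∃ W' : WeierstrassCurve ℤ, W'.Δ ≠ 0 ∧ W'.IsSemistableModel ∧ W'.ModRepIsIrreducible 5 ∧
      ModularityGlue.NonzeroTraceAtThree W' ∧
      ∀ ℓ : ℕ, ℓ.Prime → W.IsGoodPrimeFor ℓ → W'.IsGoodPrimeFor ℓ → ℓ ≠ 3 →
        (3 : ℤ) ∣ (W'.apOfModel ℓ - W.apOfModel ℓ) := by
  set M : ℤ := 2 ^ 12 * W.Δ with hM
  have h3M : ¬ ((3 : ℕ) : ℤ) ∣ M := by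
    intro h
    rcases Int.prime_three.dvd_or_dvd (by exact_mod_cast h : (3 : ℤ) ∣ M) with h | h
    · norm_num at h
    · exact h3 h
  have hcop : IsCoprime M (81 : ℤ) := by
    have := (isCoprime_of_not_dvd Nat.prime_three h3M).pow_right (n := 4)
    norm_num at this
    exact this
  obtain ⟨x₀, hx₀, hx₁⟩ := exists_crt hcop 1 1
  obtain ⟨y₀, hy₀, hy₁⟩ := exists_crt hcop 0 σ
  obtain ⟨u, v, huv, hu, hv⟩ := exists_coprime_lift (M := M * 81)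
    (mul_ne_zero (mul_ne_zero (by norm_num) hΔ) (by norm_num)) (u₀ := x₀) (v₀ := y₀) (by
      intro p hp hd ⟨hpu, _⟩
      have hp' := Nat.prime_iff_prime_int.mp hp
      rcases hp'.dvd_or_dvd hd with h | h
      · exact hp'.not_dvd_one (by simpa using dvd_sub hpu (h.trans hx₀))
      · exact hp'.not_dvd_one (by simpa using dvd_sub hpu (h.trans hx₁)))
  have hu1 : M ∣ u - 1 := by simpa using dvd_add ((dvd_mul_right M _).trans hu) hx₀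
  have hv0 : M ∣ v := by simpa using dvd_add ((dvd_mul_right M _).trans hv) hy₀
  have hu3 : (81 : ℤ) ∣ u - 1 := by simpa using dvd_add ((dvd_mul_left _ M).trans hu) hx₁
  have hv3 : (81 : ℤ) ∣ v - σ := by simpa using dvd_add ((dvd_mul_left _ M).trans hv) hy₁
  obtain ⟨c4, c6, -⟩ := pen_congr W.c₄ W.c₆ hu1 (show M ∣ v - 0 by simpa using hv0)
  rw [penC4_one_zero] at c4
  rw [penC6_one_zero] at c6
  have hc3 : ¬ (3 : ℤ) ∣ c := fun h => by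
    have := dvd_sub h hc1
    norm_num at this
  have hA : (9 : ℤ) ∣ penC4 W.c₄ W.c₆ u v - 3 := by
    obtain ⟨k, hk⟩ := hc1
    have h9 : (9 : ℤ) ∣ W.c₄ - 3 := ⟨k, by rw [hc]; linarith⟩
    simpa using dvd_add (nine_dvd_penC4_sub (v := v) hc hc' hu3) h9
  obtain ⟨hB, hB'⟩ := penC6_mod_eightyOne hc hc' hσ hc3 hσ' hu3 hv3
  obtain ⟨W₃, hA₃, hB₃, hg₃, ha₃⟩ := exists_local_three _ _ hA hB hB'
  have m2 : (2 : ℤ) ^ 12 ∣ M := dvd_mul_right _ _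
  obtain ⟨W', hc₄, hc₆, hr₂, hr₃⟩ := exists_model_of_local _ _ W W₃
    (m2.trans c4) (m2.trans c6) hA₃ hB₃
  have hD0 : penD W.c₄ W.c₆ u v ≠ 0 :=
    direct_penD_ne_zero (((dvd_pow_self 2 (by norm_num)).trans m2).trans hu1)
      (((dvd_pow_self 2 (by norm_num)).trans m2).trans hv0)
  have hΔ' := direct_Δ hc₄ hc₆
  have hss : W'.IsSemistableModel := semistable_of_local W' W W₃ hr₂ hr₃
    (fun h => hW 2 Nat.prime_two h.1 h.2) (fun h => hg₃ h.1)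
    (fun q hq hq5 => by
      rw [hc₄, hc₆]
      exact direct_semistable_aux hW huv ((dvd_mul_left _ _).trans hu1)
        ((dvd_mul_left _ _).trans hv0) q hq hq5)
  refine ⟨W', by rw [hΔ']; exact mul_ne_zero hΔ (pow_ne_zero _ hD0), hss, ?_,
    Or.inr (by rwa [apOfModel_eq_of_reductionMod hr₃]),
    fun q hq hg hg' hq3 => congruence_direct hΔ hD0 hc₄ hc₆ hq hg hg' hq3⟩
  refine irreducible_five_of_dvd_c4 Nat.prime_three le_rfl (Or.inr (Or.inr rfl))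
    (fun h => hg₃ ((dvd_Δ_iff_of_reductionMod hr₃).mp h)) ?_
  rw [hc₄]
  simpa using dvd_add ((show (3 : ℤ) ∣ 9 by norm_num).trans hA) (dvd_refl (3 : ℤ))

/-- With odd discriminant and even `c₄` one has `16 ∣ c₄` and `c₆ ≡ 8 mod 32`. -/
theorem invariants_of_two_dvd_c₄ {W : WeierstrassCurve ℤ} (hΔ2 : ¬ (2 : ℤ) ∣ W.Δ)
    (h2 : (2 : ℤ) ∣ W.c₄) : (16 : ℤ) ∣ W.c₄ ∧ ∃ f, W.c₆ = 8 * (4 * f + 1) := by
  obtain ⟨b, hb⟩ : (2 : ℤ) ∣ W.a₁ := by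
    obtain ⟨k, hk⟩ := h2
    have : (2 : ℤ) ∣ W.a₁ ^ 4 :=
      ⟨k - (4 * W.a₁ ^ 2 * W.a₂ + 8 * W.a₂ ^ 2 - 24 * W.a₄ - 12 * W.a₁ * W.a₃), by
        rw [WeierstrassCurve.c₄, WeierstrassCurve.b₂, WeierstrassCurve.b₄] at hk
        linear_combination hk⟩
    exact Int.prime_two.dvd_of_dvd_pow this
  obtain ⟨a3, ha3⟩ : Odd W.a₃ := by
    rcases Int.even_or_odd W.a₃ with ⟨k, hk⟩ | h
    · refine absurd ?_ hΔ2
      rw [WeierstrassCurve.Δ]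
      refine ⟨-2 * (b ^ 2 + W.a₂) ^ 2 * W.b₈ * 4 - 4 * W.b₄ ^ 3 - 54 * (k ^ 2 + W.a₆) * W.b₆
        + 18 * (b ^ 2 + W.a₂) * W.b₄ * W.b₆, ?_⟩
      simp only [WeierstrassCurve.b₂, WeierstrassCurve.b₆, hb, hk]
      ring
    · exact h
  obtain ⟨g, hg⟩ : ∃ g, W.b₆ = 1 + 4 * g := ⟨a3 ^ 2 + a3 + W.a₆, by
    rw [WeierstrassCurve.b₆, ha3]; ring⟩
  refine ⟨⟨(b ^ 2 + W.a₂) ^ 2 - 3 * (b * W.a₃ + W.a₄), ?_⟩,
    -2 * (b ^ 2 + W.a₂) ^ 3 + 9 * (b ^ 2 + W.a₂) * (b * W.a₃ + W.a₄) - 27 * g - 7, ?_⟩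
  · rw [WeierstrassCurve.c₄, WeierstrassCurve.b₂, WeierstrassCurve.b₄, hb]; ring
  · rw [WeierstrassCurve.c₆, hg]
    simp only [WeierstrassCurve.b₂, WeierstrassCurve.b₄, hb]
    ring

/-- With odd `c₄` one has `c₆ ≡ 3 mod 4`. -/
theorem exists_c₆_eq_of_odd_c₄ {W : WeierstrassCurve ℤ} (h2 : ¬ (2 : ℤ) ∣ W.c₄) :
    ∃ f, W.c₆ = 4 * f - 1 := by
  have hb2 : Odd (W.a₁ ^ 2 + 4 * W.a₂) := by
    rw [← Int.not_even_iff_odd, even_iff_two_dvd]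
    intro h
    refine h2 ?_
    rw [WeierstrassCurve.c₄, WeierstrassCurve.b₂]
    exact dvd_sub (dvd_pow h two_ne_zero) (dvd_mul_of_dvd_left (by norm_num) _)
  obtain ⟨k, hk⟩ : Odd W.a₁ := by
    rcases Int.even_or_odd W.a₁ with ⟨k, hk⟩ | h
    · exact absurd hb2 (Int.not_odd_iff_even.mpr ⟨2 * k ^ 2 + 2 * W.a₂, by rw [hk]; ring⟩)
    · exact h
  obtain ⟨β, hβ⟩ : ∃ β, W.b₂ = 4 * β + 1 :=
    ⟨k ^ 2 + k + W.a₂, by rw [WeierstrassCurve.b₂, hk]; ring⟩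
  exact ⟨-16 * β ^ 3 - 12 * β ^ 2 - 3 * β + 9 * W.b₂ * W.b₄ - 54 * W.b₆, by
    rw [WeierstrassCurve.c₆, hβ]; ring⟩

/-- The scaled invariants of an anti-symplectic member satisfy `64 ∣ A³ - B²` when `Δ` is odd and
`16 ∣ penC4`. -/
theorem sixtyFour_dvd_anti {W : WeierstrassCurve ℤ} (hΔ2 : ¬ (2 : ℤ) ∣ W.Δ) {u v A B : ℤ}
    (hC : (16 : ℤ) ∣ penC4 W.c₄ W.c₆ u v) (hA : W.Δ * A = -3 * penD W.c₄ W.c₆ u v)
    (hB : 8 * W.Δ ^ 2 * B = -penC6 W.c₄ W.c₆ u v) : (64 : ℤ) ∣ A ^ 3 - B ^ 2 := by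
  refine IsCoprime.dvd_of_dvd_mul_left (y := W.Δ ^ 4) ?_ ?_
  · have := ((isCoprime_of_not_dvd Nat.prime_two hΔ2).pow_left (m := 4)).symm.pow_left (m := 6)
    norm_num at this
    exact this
  · obtain ⟨k, hk⟩ := hC
    refine ⟨-k ^ 3, mul_left_cancel₀ (by norm_num : (64 : ℤ) ≠ 0) ?_⟩
    have hcube := penC4_cube_sub W.c₄ W.c₆ u v
    rw [discAB_c₄_c₆, hk] at hcube
    linear_combination (64 * W.Δ * (W.Δ ^ 2 * A ^ 2 - 3 * penD W.c₄ W.c₆ u v * (W.Δ * A)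
        + 9 * penD W.c₄ W.c₆ u v ^ 2)) * hA
      + (-8 * W.Δ ^ 2 * B + penC6 W.c₄ W.c₆ u v) * hB + hcube

/-- An integer `≡ 2ᵃ 3⁴ c₆² mod Δ` is prime to the primes `≥ 5` dividing `Δ`. -/
theorem not_dvd_of_eq_c₆_sq_add {W : WeierstrassCurve ℤ} (hW : W.IsSemistableModel) {a : ℕ}
    {A t : ℤ} (hA : A = 2 ^ a * 3 ^ 4 * W.c₆ ^ 2 + W.Δ * t) (q : ℕ) (hq : q.Prime) (hq5 : 5 ≤ q)
    (hqΔ : (q : ℤ) ∣ W.Δ) : ¬ (q : ℤ) ∣ A := by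
  intro hqA
  rw [hA, dvd_add_left (dvd_mul_of_dvd_left hqΔ _)] at hqA
  have hp := Nat.prime_iff_prime_int.mp hq
  exact semistable_not_dvd_c₆ hW hq hqΔ (hp.dvd_of_dvd_pow ((hp.dvd_or_dvd hqA).resolve_left
    (prime_not_dvd_of_factors hq hq5 a 4)))

/-- The scaled invariants, when `c₄` is even, of the members of the anti-symplectic pencil near
`(-c₆ : c₄)` modulo `Δ³` and near `(1 : 0)` modulo `2²⁰`. -/
theorem exists_anti_invariants_of_even {W : WeierstrassCurve ℤ} (hW : W.IsSemistableModel)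
    (h2 : (2 : ℤ) ∣ W.c₄) {u v : ℤ} (hu : W.Δ ^ 3 ∣ u - -W.c₆) (hv : W.Δ ^ 3 ∣ v - W.c₄)
    (hu2 : (2 : ℤ) ^ 20 ∣ u - 1) (hv2 : (2 : ℤ) ^ 20 ∣ v - 0) :
    ∃ A B : ℤ, W.Δ * A = -3 * penD W.c₄ W.c₆ u v ∧
      8 * W.Δ ^ 2 * B = -penC6 W.c₄ W.c₆ u v ∧ Odd A ∧ 4 ∣ B + 1 ∧ 64 ∣ A ^ 3 - B ^ 2 ∧
      ∀ q : ℕ, q.Prime → 5 ≤ q → (q : ℤ) ∣ W.Δ → ¬ (q : ℤ) ∣ A := by
  have hΔ2 : ¬ (2 : ℤ) ∣ W.Δ := fun h => hW 2 Nat.prime_two h h2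
  obtain ⟨h16, f, hf⟩ := invariants_of_two_dvd_c₄ hΔ2 h2
  obtain ⟨-, ⟨j, hj⟩, i, hi⟩ := pen_congr W.c₄ W.c₆ hu hv
  rw [penD_neg_c₆_c₄] at hi
  rw [penC6_neg_c₆_c₄] at hj
  obtain ⟨t4, ⟨k, hk⟩, k', hk'⟩ := pen_congr W.c₄ W.c₆ hu2 hv2
  rw [penC4_one_zero] at t4
  rw [penC6_one_zero] at hk
  rw [penD_one_zero] at hk'
  obtain ⟨j', rfl⟩ : (8 : ℤ) ∣ j := by
    have h8Δ : IsCoprime (8 : ℤ) (W.Δ ^ 3) := by
      have := ((isCoprime_of_not_dvd Nat.prime_two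
        (not_dvd_mul_pow Nat.prime_two hΔ2 (n := 3))).pow_right (n := 3)).symm
      norm_num at this
      exact this
    refine h8Δ.dvd_of_dvd_mul_left ⟨(4 * f + 1) + 2 ^ 17 * k
      + 1728 * W.Δ ^ 2 * W.c₆ * (8 * W.c₆ ^ 2 + 15552 * W.Δ) * 216, ?_⟩
    linear_combination hk + hf - hj
  set A := 5184 * (4 * W.c₆ ^ 2 + 5184 * W.Δ) - 3 * W.Δ ^ 2 * i with hAdef
  set B := 373248 * W.c₆ * (8 * W.c₆ ^ 2 + 15552 * W.Δ) - W.Δ * j' with hBdef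
  have hA : W.Δ * A = -3 * penD W.c₄ W.c₆ u v := by
    rw [hAdef]; linear_combination 3 * hi
  have hB : 8 * W.Δ ^ 2 * B = -penC6 W.c₄ W.c₆ u v := by
    rw [hBdef]; linear_combination hj
  refine ⟨A, B, hA, hB, ?_, ?_, ?_, not_dvd_of_eq_c₆_sq_add hW (a := 8)
    (t := 5184 * 5184 - 3 * W.Δ * i) (by rw [hAdef]; ring)⟩
  · rw [← Int.not_even_iff_odd, even_iff_two_dvd]
    rintro ⟨m, hm⟩
    rw [hm] at hA
    have h23 : (2 : ℤ) ∣ 3 :=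
      ⟨-(W.Δ * m) - 3 * 2 ^ 19 * k', by linear_combination hA - 3 * hk'⟩
    norm_num at h23
  · obtain ⟨s, hs⟩ : (4 : ℤ) ∣ W.Δ ^ 2 - 1 := by
      obtain ⟨m, hm⟩ := Int.not_even_iff_odd.mp (fun h => hΔ2 (even_iff_two_dvd.mp h))
      exact ⟨m ^ 2 + m, by rw [hm]; ring⟩
    refine ⟨-(s * B) - f - 2 ^ 15 * k, mul_left_cancel₀ (by norm_num : (8 : ℤ) ≠ 0) ?_⟩
    linear_combination hB - hk - hf - 8 * B * hs
  · exact sixtyFour_dvd_anti hΔ2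
      (by simpa using dvd_add ((show (16 : ℤ) ∣ 2 ^ 20 by norm_num).trans t4) h16) hA hB

/-- The scaled invariants, when `c₄` is odd, of the members of the anti-symplectic pencil near
`(-c₆ : c₄)` modulo `2³² Δ³`. -/
theorem exists_anti_invariants_of_odd {W : WeierstrassCurve ℤ} (hW : W.IsSemistableModel)
    (h2 : ¬ (2 : ℤ) ∣ W.c₄) {u v : ℤ} (hu : 2 ^ 32 * W.Δ ^ 3 ∣ u - -W.c₆)
    (hv : 2 ^ 32 * W.Δ ^ 3 ∣ v - W.c₄) :
    ∃ A B : ℤ, (4 : ℤ) ^ 4 * W.Δ * A = -3 * penD W.c₄ W.c₆ u v ∧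
      8 * (4 : ℤ) ^ 6 * W.Δ ^ 2 * B = -penC6 W.c₄ W.c₆ u v ∧
      Odd A ∧ 4 ∣ B + 1 ∧ 64 ∣ A ^ 3 - B ^ 2 ∧
      ∀ q : ℕ, q.Prime → 5 ≤ q → (q : ℤ) ∣ W.Δ → ¬ (q : ℤ) ∣ A := by
  obtain ⟨-, ⟨j, hj⟩, i, hi⟩ := pen_congr W.c₄ W.c₆ hu hv
  rw [penD_neg_c₆_c₄] at hi
  rw [penC6_neg_c₆_c₄] at hj
  obtain ⟨f, hf⟩ := exists_c₆_eq_of_odd_c₄ h2
  refine ⟨81 * (W.c₆ ^ 2 + 1296 * W.Δ) - 3 * 2 ^ 24 * W.Δ ^ 2 * i,
    729 * W.c₆ * (W.c₆ ^ 2 + 1944 * W.Δ) - 2 ^ 17 * W.Δ * j, by linear_combination 3 * hi,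
    by linear_combination hj, ?_, ?_, ?_, not_dvd_of_eq_c₆_sq_add hW (a := 0)
      (t := 81 * 1296 - 3 * 2 ^ 24 * W.Δ * i) (by ring)⟩
  · exact ⟨81 * (8 * f ^ 2 - 4 * f + 648 * W.Δ) + 40 - 3 * 2 ^ 23 * W.Δ ^ 2 * i,
      by rw [hf]; ring⟩
  · exact ⟨729 * ((4 * f - 1) * 486 * W.Δ + 16 * f ^ 3 - 12 * f ^ 2 + 3 * f) - 182
      - 2 ^ 15 * W.Δ * j, by rw [hf]; ring⟩
  · have h0 : (64 : ℤ) ∣ (81 * (W.c₆ ^ 2 + 1296 * W.Δ)) ^ 3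
        - (729 * W.c₆ * (W.c₆ ^ 2 + 1944 * W.Δ)) ^ 2 :=
      ⟨3 ^ 12 * W.Δ ^ 2 * (19683 * W.c₆ ^ 2 + 34012224 * W.Δ), by ring⟩
    have h1 : (64 : ℤ) ∣ (81 * (W.c₆ ^ 2 + 1296 * W.Δ) - 3 * 2 ^ 24 * W.Δ ^ 2 * i) ^ 3
        - (81 * (W.c₆ ^ 2 + 1296 * W.Δ)) ^ 3 := by
      refine dvd_trans ?_ (sub_dvd_pow_sub_pow _ _ 3)
      exact ⟨-3 * 2 ^ 18 * W.Δ ^ 2 * i, by ring⟩
    have h2' : (64 : ℤ) ∣ (729 * W.c₆ * (W.c₆ ^ 2 + 1944 * W.Δ) - 2 ^ 17 * W.Δ * j) ^ 2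
        - (729 * W.c₆ * (W.c₆ ^ 2 + 1944 * W.Δ)) ^ 2 := by
      refine dvd_trans ?_ (sub_dvd_pow_sub_pow _ _ 2)
      exact ⟨-2 ^ 11 * W.Δ * j, by ring⟩
    have := dvd_sub (dvd_add h0 h1) h2'
    convert! this using 1
    ring

/-- Residues for the parameter in the anti-symplectic pencil. -/
theorem exists_anti_base {W : WeierstrassCurve ℤ} (hW : W.IsSemistableModel)
    (h3 : ¬ (3 : ℤ) ∣ W.Δ) :
    ∃ M x y lam : ℤ, (lam = 1 ∨ lam = 4) ∧ (W.Δ ≠ 0 → M ≠ 0) ∧ ¬ (3 : ℤ) ∣ M ∧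
      (∀ p : ℕ, p.Prime → (p : ℤ) ∣ M → ¬ ((p : ℤ) ∣ x ∧ (p : ℤ) ∣ y)) ∧
      ∀ u v : ℤ, M ∣ u - x → M ∣ v - y → ∃ A B : ℤ,
        lam ^ 4 * W.Δ * A = -3 * penD W.c₄ W.c₆ u v ∧
        8 * lam ^ 6 * W.Δ ^ 2 * B = -penC6 W.c₄ W.c₆ u v ∧
        Odd A ∧ 4 ∣ B + 1 ∧ 64 ∣ A ^ 3 - B ^ 2 ∧
        ∀ q : ℕ, q.Prime → 5 ≤ q → (q : ℤ) ∣ W.Δ → ¬ (q : ℤ) ∣ A := by
  have h3' : ∀ n : ℕ, ¬ (3 : ℤ) ∣ W.Δ ^ 3 * 2 ^ n := fun n h =>
    (Int.prime_three.dvd_or_dvd h).elim (fun h => h3 (Int.prime_three.dvd_of_dvd_pow h))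
      fun h => by simpa using Int.le_of_dvd (by norm_num) (Int.prime_three.dvd_of_dvd_pow h)
  by_cases h2 : (2 : ℤ) ∣ W.c₄
  · have hΔ2 : ¬ (2 : ℤ) ∣ W.Δ := fun h => hW 2 Nat.prime_two h h2
    have hcop : IsCoprime (W.Δ ^ 3) ((2 : ℤ) ^ 20) :=
      (isCoprime_of_not_dvd Nat.prime_two (not_dvd_mul_pow Nat.prime_two hΔ2)).pow_right
    obtain ⟨x, hx₀, hx₁⟩ := exists_crt hcop (-W.c₆) 1
    obtain ⟨y, hy₀, hy₁⟩ := exists_crt hcop W.c₄ 0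
    refine ⟨W.Δ ^ 3 * 2 ^ 20, x, y, 1, Or.inl rfl, fun hΔ => mul_ne_zero (pow_ne_zero _ hΔ)
      (by norm_num), h3' 20, ?_, fun u v hu hv => ?_⟩
    · intro p hp hd ⟨hpu, hpv⟩
      have hp' := Nat.prime_iff_prime_int.mp hp
      rcases hp'.dvd_or_dvd hd with h | h
      · exact hW p hp (hp'.dvd_of_dvd_pow h) (by simpa using dvd_sub hpv (h.trans hy₀))
      · exact hp'.not_dvd_one (by simpa using dvd_sub hpu (h.trans hx₁))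
    · simpa using exists_anti_invariants_of_even hW h2
        (sub_add_sub_cancel u x (-W.c₆) ▸ dvd_add ((dvd_mul_right _ _).trans hu) hx₀)
        (sub_add_sub_cancel v y W.c₄ ▸ dvd_add ((dvd_mul_right _ _).trans hv) hy₀)
        (sub_add_sub_cancel u x 1 ▸ dvd_add ((dvd_mul_left _ _).trans hu) hx₁)
        (sub_add_sub_cancel v y 0 ▸ dvd_add ((dvd_mul_left _ _).trans hv) hy₁)
  · refine ⟨2 ^ 32 * W.Δ ^ 3, -W.c₆, W.c₄, 4, Or.inr rfl, fun hΔ => mul_ne_zero (by norm_num)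
      (pow_ne_zero _ hΔ), by rw [mul_comm]; exact h3' 32, ?_,
      fun u v => exists_anti_invariants_of_odd hW h2⟩
    intro p hp hd ⟨_, hpv⟩
    have hp' := Nat.prime_iff_prime_int.mp hp
    rcases hp'.dvd_or_dvd hd with h | h
    · obtain rfl : p = 2 := (Nat.prime_dvd_prime_iff_eq hp Nat.prime_two).mp
        (Int.natCast_dvd_natCast.mp (by exact_mod_cast hp'.dvd_of_dvd_pow h))
      exact h2 (by exact_mod_cast hpv)
    · exact hW p hp (hp'.dvd_of_dvd_pow h) hpv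

/-- The first invariant of an anti-symplectic member is `3` modulo `9`. -/
theorem anti_A_mod_nine {l δ A D : ℤ} (hl : (3 : ℤ) ∣ l - 1) (hδ : (3 : ℤ) ∣ δ + 1)
    (hD : (3 : ℤ) ∣ D - 1) (e : l * δ * A = -3 * D) : (9 : ℤ) ∣ A - 3 := by
  obtain ⟨x, hx⟩ := hl
  obtain ⟨y, hy⟩ := hδ
  obtain ⟨z, hz⟩ := hD
  obtain ⟨w, rfl⟩ : (3 : ℤ) ∣ A :=
    ⟨D + (x * δ + y) * A, by
      linear_combination -e + A * δ * hx + A * hy⟩
  exact ⟨z + (x * δ + y) * w, by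
    linear_combination -e + 3 * w * δ * hx + 3 * w * hy + 3 * hz⟩

/-- The switch at a supersingular three in the anti-symplectic pencil. -/
theorem switch_anti {W : WeierstrassCurve ℤ} (hΔ : W.Δ ≠ 0) (hW : W.IsSemistableModel)
    (h3 : ¬ (3 : ℤ) ∣ W.Δ) {c c' σ : ℤ} (hc : W.c₄ = 3 * c) (hc' : W.c₆ = 27 * c')
    (hσ : σ = 1 ∨ σ = -1) (hσ' : ¬ (3 : ℤ) ∣ c' - σ) (hcΔ : (3 : ℤ) ∣ c - W.Δ)
    (hc2 : (3 : ℤ) ∣ c + 1) :
    ∃ W' : WeierstrassCurve ℤ, W'.Δ ≠ 0 ∧ W'.IsSemistableModel ∧ W'.ModRepIsIrreducible 5 ∧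
      ModularityGlue.NonzeroTraceAtThree W' ∧
      ∀ ℓ : ℕ, ℓ.Prime → W.IsGoodPrimeFor ℓ → W'.IsGoodPrimeFor ℓ → ℓ ≠ 3 →
        (3 : ℤ) ∣ (W'.apOfModel ℓ - W.apOfModel ℓ) := by
  obtain ⟨M, x, y, lam, hlam, hM0, hM3, hMxy, hbase⟩ := exists_anti_base hW h3
  have hcop : IsCoprime M (81 : ℤ) := by
    have := (isCoprime_of_not_dvd Nat.prime_three (by exact_mod_cast hM3)).pow_right (n := 4)
    norm_num at this
    exact this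
  obtain ⟨x₀, hx₀, hx₁⟩ := exists_crt hcop x 1
  obtain ⟨y₀, hy₀, hy₁⟩ := exists_crt hcop y σ
  obtain ⟨u, v, huv, hu, hv⟩ := exists_coprime_lift (M := M * 81)
    (mul_ne_zero (hM0 hΔ) (by norm_num)) (u₀ := x₀) (v₀ := y₀) (by
      intro p hp hd ⟨hpu, hpv⟩
      have hp' := Nat.prime_iff_prime_int.mp hp
      rcases hp'.dvd_or_dvd hd with h | h
      · exact hMxy p hp h ⟨by simpa using dvd_sub hpu (h.trans hx₀),
          by simpa using dvd_sub hpv (h.trans hy₀)⟩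
      · exact hp'.not_dvd_one (by simpa using dvd_sub hpu (h.trans hx₁)))
  have hu1 : M ∣ u - x := by simpa using dvd_add ((dvd_mul_right M _).trans hu) hx₀
  have hv1 : M ∣ v - y := by simpa using dvd_add ((dvd_mul_right M _).trans hv) hy₀
  have hu3 : (81 : ℤ) ∣ u - 1 := by simpa using dvd_add ((dvd_mul_left _ M).trans hu) hx₁
  have hv3 : (81 : ℤ) ∣ v - σ := by simpa using dvd_add ((dvd_mul_left _ M).trans hv) hy₁
  obtain ⟨A, B, eA, eB, hAodd, hB4, h64, hqA⟩ := hbase u v hu1 hv1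
  have hc3 : ¬ (3 : ℤ) ∣ c := fun h => by
    have := dvd_sub hc2 h
    norm_num at this
  obtain ⟨h27, h81⟩ := penC6_mod_eightyOne hc hc' hσ hc3 hσ' hu3 hv3
  have hC0 : penC4 W.c₄ W.c₆ u v ≠ 0 := by
    intro h
    have := nine_dvd_penC4_sub (v := v) hc hc' hu3
    rw [h, hc] at this
    obtain ⟨k, hk⟩ := this
    exact hc3 ⟨-k, by linarith⟩
  have hl1 : (3 : ℤ) ∣ lam ^ 4 - 1 := by rcases hlam with rfl | rfl <;> norm_num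
  have hA9 : (9 : ℤ) ∣ A - 3 := by
    refine anti_A_mod_nine hl1 ?_ ?_ eA
    · have := dvd_sub hc2 hcΔ
      convert! this using 1; ring
    · obtain ⟨k, hk⟩ := (show (3 : ℤ) ∣ 81 by norm_num).trans hu3
      obtain rfl : u = 3 * k + 1 := by linarith
      exact ⟨k * ((3 * k + 1) ^ 3 + (3 * k + 1) ^ 2 + (3 * k + 1) + 1)
        - 6 * c * (3 * k + 1) ^ 2 * v ^ 2 - 72 * c' * (3 * k + 1) * v ^ 3 - 9 * c ^ 2 * v ^ 4, by
        simp only [penD, hc, hc']; ring⟩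
  have hcop8 : IsCoprime (3 : ℤ) (8 * lam ^ 6 * W.Δ ^ 2) := by
    refine (IsCoprime.mul_right (IsCoprime.mul_right ?_ ?_) ?_)
    · exact ⟨3, -1, by norm_num⟩
    · rcases hlam with rfl | rfl
      · rw [one_pow]; exact isCoprime_one_right
      · exact (IsCoprime.pow_right (⟨-1, 1, by norm_num⟩ : IsCoprime (3 : ℤ) 4))
    · exact ((Int.prime_three.coprime_iff_not_dvd.mpr h3).pow_right)
  have hB27 : (27 : ℤ) ∣ B := by
    refine IsCoprime.dvd_of_dvd_mul_left (y := 8 * lam ^ 6 * W.Δ ^ 2) ?_ ?_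
    · have := hcop8.pow_left (m := 3)
      norm_num at this ⊢
      exact this
    · rw [eB]; exact h27.neg_right
  have hB81 : ¬ (81 : ℤ) ∣ B := fun h => h81 (dvd_neg.mp (eB ▸ dvd_mul_of_dvd_right h _))
  obtain ⟨W₂, hodd₂, hA₂, hB₂⟩ := exists_local_two A B hAodd hB4 h64
  obtain ⟨W₃, hA₃, hB₃, hg₃, ha₃⟩ := exists_local_three A B hA9 hB27 hB81
  obtain ⟨W', hc₄, hc₆, hr₂, hr₃⟩ := exists_model_of_local A B W₂ W₃ hA₂ hB₂ hA₃ hB₃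
  have hlam0 : lam ≠ 0 := by rcases hlam with rfl | rfl <;> norm_num
  rw [← hc₄] at eA hqA
  rw [← hc₆] at eB
  have hΔ'0 : W'.Δ ≠ 0 := by
    intro h0
    have e := W'.c_relation
    rw [h0, mul_zero] at e
    have hcube := penC4_cube_sub W.c₄ W.c₆ u v
    rw [discAB_c₄_c₆] at hcube
    apply hC0
    refine pow_eq_zero_iff (n := 3) three_ne_zero |>.mp ?_
    linear_combination (64 * lam ^ 12 * W.Δ ^ 4) * e + hcube
      + 64 * W.Δ * ((lam ^ 4 * W.Δ * W'.c₄) ^ 2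
          - 3 * penD W.c₄ W.c₆ u v * (lam ^ 4 * W.Δ * W'.c₄) + 9 * penD W.c₄ W.c₆ u v ^ 2) * eA
      + (-(8 * lam ^ 6 * W.Δ ^ 2 * W'.c₆) + penC6 W.c₄ W.c₆ u v) * eB
  have hss : W'.IsSemistableModel := semistable_of_local W' W₂ W₃ hr₂ hr₃
    (fun ⟨_, h⟩ => by
      obtain ⟨k, hk⟩ := hodd₂
      obtain ⟨m, hm⟩ := h
      simp only [WeierstrassCurve.c₄, WeierstrassCurve.b₂, hk] at hm
      have : (2 : ℤ) ∣ 1 := ⟨m - 8 * k ^ 4 - 16 * k ^ 3 - 12 * k ^ 2 - 4 * k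
        - 4 * W₂.a₂ * (2 * k + 1) ^ 2 - 8 * W₂.a₂ ^ 2 + 12 * W₂.b₄, by linear_combination hm⟩
      norm_num at this)
    (fun h => hg₃ h.1)
    (fun q hq hq5 ⟨h4, h6⟩ => by
      have hp := Nat.prime_iff_prime_int.mp hq
      by_cases hqΔ : (q : ℤ) ∣ W.Δ
      · exact hqA q hq hq5 hqΔ h4
      · have hD : (q : ℤ) ∣ penD W.c₄ W.c₆ u v :=
          (hp.dvd_or_dvd (dvd_neg.mp (by
            rw [← neg_mul, ← eA]; exact dvd_mul_of_dvd_right h4 _))).resolve_left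
            (by simpa using prime_not_dvd_of_factors hq hq5 0 1)
        have h6' : (q : ℤ) ∣ penC6 W.c₄ W.c₆ u v :=
          dvd_neg.mp (eB ▸ dvd_mul_of_dvd_right h6 _)
        refine no_common_zero hq hq5 hqΔ (not_dvd_both_of_isCoprime hq huv) ⟨?_, hD⟩
        refine hp.dvd_of_dvd_pow (n := 3) ?_
        rw [show penC4 W.c₄ W.c₆ u v ^ 3 = discAB W.c₄ W.c₆ * penD W.c₄ W.c₆ u v ^ 3
          + penC6 W.c₄ W.c₆ u v ^ 2 by rw [← penC4_cube_sub]; ring]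
        exact dvd_add (dvd_mul_of_dvd_right (dvd_pow hD three_ne_zero) _)
          (dvd_pow h6' two_ne_zero))
  have hc4ne : W.c₄ ≠ 0 := fun h => by
    rw [hc] at h
    exact hc3 ⟨0, by linarith⟩
  refine ⟨W', hΔ'0, hss, ?_, Or.inr (by rwa [apOfModel_eq_of_reductionMod hr₃]),
    fun q hq hg hg' hq3 => congruence_anti hΔ hc4ne hlam0 hC0 eA eB hq hg hg' hq3⟩
  refine irreducible_five_of_dvd_c4 Nat.prime_three le_rfl (Or.inr (Or.inr rfl))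
    (fun h => hg₃ ((dvd_Δ_iff_of_reductionMod hr₃).mp h)) ?_
  rw [hc₄]
  simpa using dvd_add ((show (3 : ℤ) ∣ 9 by norm_num).trans hA9) (dvd_refl (3 : ℤ))

/-- **The switch at three.** A semistable curve irreducible at three is congruent modulo three to
one that is
irreducible at five and has nonzero trace at three. -/
theorem switchThreeToFive : ModularityGlue.SwitchThreeToFive := by
  intro W hΔ hW _
  by_cases htr : ModularityGlue.NonzeroTraceAtThree W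
  · exact switch_of_nonzeroTrace hΔ hW htr
  rw [ModularityGlue.NonzeroTraceAtThree, not_or, not_not] at htr
  obtain ⟨h3, ha⟩ := htr
  obtain ⟨c, c', hc, hc', hcΔ⟩ := supersingular_three h3 ha
  obtain ⟨σ, hσ, hσ'⟩ : ∃ σ : ℤ, (σ = 1 ∨ σ = -1) ∧ ¬ (3 : ℤ) ∣ c' - σ := by
    by_cases h : (3 : ℤ) ∣ c' - 1
    · exact ⟨-1, Or.inr rfl, fun h' => by omega⟩
    · exact ⟨1, Or.inl rfl, h⟩
  by_cases hc1 : (3 : ℤ) ∣ c - 1
  · exact switch_direct hΔ hW h3 hc hc' hσ hσ' hc1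
  · exact switch_anti hΔ hW h3 hc hc' hσ hσ' hcΔ (by omega)

end Fermat.Agent.SwitchThree
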