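import Mathlib.Tactic.LinearCombination
import Mathlib.Tactic.FieldSimp
import Mathlib.Tactic.Ring
import Mathlib.Algebra.CharZero.Defs
import Mathlib.Algebra.Field.Basic
import Mathlib.Algebra.Ring.Parity

/-!
# Algebra of the two `X(3)` pencils

In the coordinates `η² = t³ - 3 a t - 2 b` the curve has invariants proportional to `(a, b)` and
its points of order three are the roots of `psiQ`. The direct pencil is `(penC4, penC6)`, the
anti-symplectic one is `(-4 d³ penD, -8 d⁴ penC6)` with `d = a³ - b²`.
-/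

set_option autoImplicit false

namespace Fermat.Agent.SwitchThree

section Ring

variable {R : Type*} [CommRing R] (a b u v t : R)

/-- `a³ - b²`. -/
def discAB : R := a ^ 3 - b ^ 2

/-- The quartic covariant `c₄` of the pencil. -/
def penC4 : R :=
  a * u ^ 4 + 4 * b * u ^ 3 * v + 6 * a ^ 2 * u ^ 2 * v ^ 2 + 4 * a * b * u * v ^ 3
    - (3 * a ^ 3 - 4 * b ^ 2) * v ^ 4

/-- The sextic covariant `c₆` of the pencil. -/
def penC6 : R :=
  b * u ^ 6 + 6 * a ^ 2 * u ^ 5 * v + 15 * a * b * u ^ 4 * v ^ 2 + 20 * b ^ 2 * u ^ 3 * v ^ 3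
    + 15 * a ^ 2 * b * u ^ 2 * v ^ 4 + 6 * (3 * a ^ 4 - 2 * a * b ^ 2) * u * v ^ 5
    + (9 * a ^ 3 * b - 8 * b ^ 3) * v ^ 6

/-- The cusp quartic of the pencil. -/
def penD : R := u ^ 4 - 6 * a * u ^ 2 * v ^ 2 - 8 * b * u * v ^ 3 - 3 * a ^ 2 * v ^ 4

/-- Abscissae of the points of order three. -/
def psiQ : R := t ^ 4 - 6 * a * t ^ 2 - 8 * b * t - 3 * a ^ 2

/-- The right hand side of the curve. -/
def cubQ : R := t ^ 3 - 3 * a * t - 2 * b

/-- Numerator of the direct point map. -/
def dirN : R :=
  (u ^ 3 - 3 * a * u * v ^ 2 - 2 * b * v ^ 3) * t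
    - (3 * a * u ^ 2 * v + 6 * b * u * v ^ 2 + 3 * a ^ 2 * v ^ 3)

/-- `C₄³ - C₆² = (a³ - b²) D³` on the pencil. -/
theorem penC4_cube_sub : penC4 a b u v ^ 3 - penC6 a b u v ^ 2 = discAB a b * penD a b u v ^ 3 := by
  simp only [penC4, penC6, penD, discAB]; ring

/-- The cubic identity satisfied by the numerator of the direct point map. -/
theorem dir_identity :
    dirN a b u v t ^ 3 - 3 * penC4 a b u v * dirN a b u v t * (u - v * t) ^ 2
        - 2 * penC6 a b u v * (u - v * t) ^ 3 =
      penD a b u v ^ 2 * (v * psiQ a b t + cubQ a b t * (u - v * t)) := by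
  simp only [penC4, penC6, penD, psiQ, cubQ, dirN]; ring

/-- The determinant of the numerator and denominator of the direct point map. -/
theorem dirN_det :
    (u ^ 3 - 3 * a * u * v ^ 2 - 2 * b * v ^ 3) * u
        - (3 * a * u ^ 2 * v + 6 * b * u * v ^ 2 + 3 * a ^ 2 * v ^ 3) * v = penD a b u v := by
  simp only [penD]; ring

/-- The member at `(1 : 0)` is the curve itself. -/
theorem penC4_one_zero : penC4 a b 1 0 = a := by simp [penC4]

/-- The second invariant at `(1 : 0)` is `b`. -/
theorem penC6_one_zero : penC6 a b 1 0 = b := by simp [penC6]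

/-- The cusp quartic is `1` at `(1 : 0)`. -/
theorem penD_one_zero : penD a b 1 0 = 1 := by simp [penD]

/-- `penC4` commutes with ring homomorphisms. -/
theorem map_penC4 {S : Type*} [CommRing S] (f : R →+* S) :
    f (penC4 a b u v) = penC4 (f a) (f b) (f u) (f v) := by simp [penC4, map_ofNat]

/-- `penC6` commutes with ring homomorphisms. -/
theorem map_penC6 {S : Type*} [CommRing S] (f : R →+* S) :
    f (penC6 a b u v) = penC6 (f a) (f b) (f u) (f v) := by simp [penC6, map_ofNat]

/-- `penD` commutes with ring homomorphisms. -/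
theorem map_penD {S : Type*} [CommRing S] (f : R →+* S) :
    f (penD a b u v) = penD (f a) (f b) (f u) (f v) := by simp [penD, map_ofNat]

/-- `discAB` commutes with ring homomorphisms. -/
theorem map_discAB {S : Type*} [CommRing S] (f : R →+* S) :
    f (discAB a b) = discAB (f a) (f b) := by simp [discAB]

end Ring

section Field

variable {F : Type*} [Field F] {a b u v t : F}

/-- The roots of `psiQ` are not roots of the cubic when the discriminant is nonzero. -/
theorem cubQ_ne_zero (h3 : (3 : F) ≠ 0) (h2 : (2 : F) ≠ 0) (hd : discAB a b ≠ 0)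
    (ht : psiQ a b t = 0) : cubQ a b t ≠ 0 := by
  intro hf
  simp only [psiQ] at ht
  simp only [cubQ] at hf
  simp only [discAB] at hd
  have hg : a * t ^ 2 + 2 * b * t + a ^ 2 = 0 := by
    have : 3 * (a * t ^ 2 + 2 * b * t + a ^ 2) = 0 := by linear_combination t * hf - ht
    exact (mul_eq_zero.mp this).resolve_left h3
  have h4 : (2 : F) ^ 2 ≠ 0 := pow_ne_zero _ h2
  have ht0 : t = 0 := by
    have : (2 : F) ^ 2 * (a ^ 3 - b ^ 2) * t = 0 := by
      linear_combination (-(a ^ 2)) * hf + (a * t - 2 * b) * hg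
    exact (mul_eq_zero.mp this).resolve_left (mul_ne_zero h4 hd)
  subst ht0
  apply hd
  have hb : b = 0 := by
    have : (2 : F) * b = 0 := by linear_combination (-1 : F) * hf
    exact (mul_eq_zero.mp this).resolve_left h2
  have ha : a = 0 := by simpa [hb] using hg
  simp [ha, hb]

/-- The pencil has no base points. -/
theorem penC4_or_penD_ne_zero (h3 : (3 : F) ≠ 0) (h2 : (2 : F) ≠ 0) (hd : discAB a b ≠ 0)
    (huv : u ≠ 0 ∨ v ≠ 0) (hD : penD a b u v = 0) : penC4 a b u v ≠ 0 := by
  intro hC
  have hv : v ≠ 0 := by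
    intro hv
    subst hv
    rcases huv with hu | hv
    · exact hu (by simpa [penD] using hD)
    · exact hv rfl
  have hC6 : penC6 a b u v = 0 := by
    have h := penC4_cube_sub a b u v
    rw [hC, hD] at h
    exact pow_eq_zero_iff (n := 2) two_ne_zero |>.mp (by linear_combination (-1 : F) * h)
  have hN : ∀ t, dirN a b u v t = 0 := fun t => by
    have h := dir_identity a b u v t
    rw [hC, hC6, hD] at h
    exact pow_eq_zero_iff (n := 3) three_ne_zero |>.mp (by linear_combination h)
  have h0 := hN 0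
  have h1 := hN 1
  simp only [dirN] at h0 h1
  simp only [penD] at hD
  have hf : cubQ a b (u / v) = 0 := by
    simp only [cubQ]
    field_simp
    linear_combination h1 - h0
  have hp : psiQ a b (u / v) = 0 := by
    simp only [psiQ]
    field_simp
    linear_combination hD
  exact cubQ_ne_zero h3 h2 hd hp hf

end Field

end Fermat.Agent.SwitchThree
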