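import Fermat.Agent.SwitchThree.PointMap

/-!
# The direct pencil

The point map from the three-torsion of the curve `(a, b)` to that of the member `(penC4, penC6)`
at `(u : v)`: it is given by explicit rational functions, is injective and preserves
collinearity.
-/

set_option autoImplicit false

namespace Fermat.Agent.SwitchThree

variable {K : Type*} [Field K]

/-- The three-division polynomial of the direct member, pulled back by the point map. -/
theorem dir_psi_identity (a b u v t : K) :
    dirN a b u v t ^ 4 - 6 * penC4 a b u v * dirN a b u v t ^ 2 * (u - v * t) ^ 2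
        - 8 * penC6 a b u v * dirN a b u v t * (u - v * t) ^ 3
        - 3 * penC4 a b u v ^ 2 * (u - v * t) ^ 4 =
      penD a b u v ^ 3 * psiQ a b t := by
  simp only [dirN, penC4, penC6, penD, psiQ]; ring

/-- The denominator of the direct point map does not vanish on three-torsion. -/
theorem dir_den_ne_zero {a b u v t : K} (hD : penD a b u v ≠ 0) (ht : psiQ a b t = 0) :
    u - v * t ≠ 0 := by
  intro h
  apply hD
  rw [sub_eq_zero.mp h]
  simp only [psiQ] at ht
  simp only [penD]
  linear_combination v ^ 4 * ht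

/-- Clearing denominators in `lineDet`. -/
theorem lineDet_div {m₁ m₂ m₃ : K} (h₁ : m₁ ≠ 0) (h₂ : m₂ ≠ 0) (h₃ : m₃ ≠ 0)
    (p₁ q₁ p₂ q₂ p₃ q₃ : K) :
    lineDet (p₁ / m₁) (q₁ / m₁) (p₂ / m₂) (q₂ / m₂) (p₃ / m₃) (q₃ / m₃) * (m₁ * m₂ * m₃) =
      p₁ * (q₂ * m₃ - q₃ * m₂) - q₁ * (p₂ * m₃ - p₃ * m₂) + m₁ * (p₂ * q₃ - p₃ * q₂) := by
  simp only [lineDet]
  field_simp
  ring

variable [CharZero K] (a b u v : K) (hD : penD a b u v ≠ 0)

/-- The point map to the member `(u : v)` of the direct pencil. -/
def directMap : CoordMap a b (penC4 a b u v) (penC6 a b u v) where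
  X x := 3 * dirN a b u v (x / 3) / (u - v * (x / 3))
  Y x y := penD a b u v * y / (u - v * (x / 3))
  mem x y h := by
    obtain ⟨he, hψ⟩ := h
    obtain ⟨t, rfl⟩ : ∃ t, x = 3 * t := ⟨x / 3, by ring⟩
    rw [mul_div_cancel_left₀ t (by norm_num : (3 : K) ≠ 0)] at hψ ⊢
    have hM := dir_den_ne_zero hD hψ
    have e := dir_identity a b u v t
    have e' := dir_psi_identity a b u v t
    rw [hψ] at e e'
    simp only [cubQ] at e
    set M := u - v * t
    set N := dirN a b u v t
    constructor
    · field_simp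
      linear_combination M * penD a b u v ^ 2 * he - 27 * e
    · simp only [psiQ]
      field_simp
      linear_combination e'
  neg x y := by ring
  inj x x' y y' h h' e := by
    have hM := dir_den_ne_zero hD h.psi
    have hM' := dir_den_ne_zero hD h'.psi
    rw [div_eq_div_iff hM hM'] at e
    have : (x - x') * penD a b u v = 0 := by
      rw [← dirN_det]
      simp only [dirN] at e
      linear_combination e
    exact sub_eq_zero.mp ((mul_eq_zero.mp this).resolve_right hD)
  collinear x₁ y₁ x₂ y₂ x₃ y₃ h₁ h₂ h₃ _ _ _ hdet := by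
    have m₁ := dir_den_ne_zero hD h₁.psi
    have m₂ := dir_den_ne_zero hD h₂.psi
    have m₃ := dir_den_ne_zero hD h₃.psi
    apply mul_right_cancel₀ (mul_ne_zero (mul_ne_zero m₁ m₂) m₃)
    rw [zero_mul, lineDet_div m₁ m₂ m₃]
    simp only [lineDet] at hdet
    simp only [dirN]
    linear_combination (penD a b u v * ((u ^ 3 - 3 * a * u * v ^ 2 - 2 * b * v ^ 3) * u
      - (3 * a * u ^ 2 * v + 6 * b * u * v ^ 2 + 3 * a ^ 2 * v ^ 3) * v)) * hdet

end Fermat.Agent.SwitchThree
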