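import Fermat.Agent.SwitchThree.Short
import Mathlib.Algebra.Module.Torsion.Basic

/-!
# Additive maps of three-torsion from collinearity-preserving coordinate maps

A `CoordMap` between two short curves induces an injective additive map on their points of order
dividing three.
-/

set_option autoImplicit false

open WeierstrassCurve WeierstrassCurve.Affine Polynomial

namespace Fermat.Agent.SwitchThree

variable {K : Type*} [Field K]

/-- The determinant deciding collinearity of three affine points. -/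
def lineDet (x₁ y₁ x₂ y₂ x₃ y₃ : K) : K :=
  (x₂ - x₁) * (y₃ - y₁) - (x₃ - x₁) * (y₂ - y₁)

/-- Coordinates of a point of order three on `shortE a b`. -/
structure IsTors (a b x y : K) : Prop where
  eqn : y ^ 2 = x ^ 3 - 27 * a * x - 54 * b
  psi : psiQ a b (x / 3) = 0

/-- Coordinates transporting the three-torsion of `shortE a b` to that of `shortE a' b'`. -/
structure CoordMap (a b a' b' : K) where
  /-- The abscissa. -/
  X : K → K
  /-- The ordinate. -/
  Y : K → K → K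
  mem : ∀ x y, IsTors a b x y → IsTors a' b' (X x) (Y x y)
  neg : ∀ x y, Y x (-y) = -Y x y
  inj : ∀ x x' y y', IsTors a b x y → IsTors a b x' y' → X x = X x' → x = x'
  collinear : ∀ x₁ y₁ x₂ y₂ x₃ y₃, IsTors a b x₁ y₁ → IsTors a b x₂ y₂ → IsTors a b x₃ y₃ →
    x₁ ≠ x₂ → x₁ ≠ x₃ → x₂ ≠ x₃ → lineDet x₁ y₁ x₂ y₂ x₃ y₃ = 0 →
    lineDet (X x₁) (Y x₁ y₁) (X x₂) (Y x₂ y₂) (X x₃) (Y x₃ y₃) = 0

variable [CharZero K] [DecidableEq K] {a b a' b' : K} {W W' : Affine K}
  (hW : W = shortE a b) (hd : discAB a b ≠ 0)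
  (hW' : W' = shortE a' b') (hd' : discAB a' b' ≠ 0) (φ : CoordMap a b a' b')

include hW hd in
/-- The coordinates of a point of order three satisfy `IsTors`. -/
theorem isTors_of_smul {x y : K} (h : W.Nonsingular x y)
    (h3 : (3 : ℤ) • Point.some x y h = 0) : IsTors a b x y :=
  ⟨(short_equation hW x y).mp h.1, (three_smul_eq_zero_iff hW hd h).mp h3⟩

open scoped Classical in
/-- The transported point. -/
noncomputable def pointImage : W.Point → W'.Point
  | .zero => 0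
  | .some x y _ =>
    if h3 : IsTors a b x y then
      .some (φ.X x) (φ.Y x y) (short_nonsingular hW' hd' (φ.mem x y h3).eqn)
    else 0

omit [DecidableEq K] in
theorem pointImage_zero : pointImage (W := W) hW' hd' φ 0 = 0 := rfl

omit [DecidableEq K] in
/-- The image of an affine three torsion point under the point map. -/
theorem pointImage_some {x y : K} (h : W.Nonsingular x y) (h3 : IsTors a b x y) :
    pointImage hW' hd' φ (.some x y h) =
      .some (φ.X x) (φ.Y x y) (short_nonsingular hW' hd' (φ.mem x y h3).eqn) := by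
  simp [pointImage, h3]

include hW hd in
/-- The transported point is killed by three. -/
theorem three_smul_pointImage {P : W.Point} (hP : (3 : ℤ) • P = 0) :
    (3 : ℤ) • pointImage hW' hd' φ P = 0 := by
  rcases P with _ | ⟨x, y, h⟩
  · rw [show (Point.zero : W.Point) = 0 from rfl, pointImage_zero, smul_zero]
  · rw [pointImage_some hW' hd' φ h (isTors_of_smul hW hd h hP), three_smul_eq_zero_iff hW' hd']
    exact (φ.mem x y (isTors_of_smul hW hd h hP)).psi

include hW hd in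
theorem pointImage_neg {P : W.Point} (hP : (3 : ℤ) • P = 0) :
    pointImage hW' hd' φ (-P) = -pointImage hW' hd' φ P := by
  rcases P with _ | ⟨x, y, h⟩
  · rw [show (Point.zero : W.Point) = 0 from rfl, neg_zero, pointImage_zero, neg_zero]
  · have t := isTors_of_smul hW hd h hP
    have t' : IsTors a b x (W.negY x y) := by
      rw [short_negY hW]; exact ⟨by rw [neg_sq]; exact t.eqn, t.psi⟩
    rw [Point.neg_some, pointImage_some hW' hd' φ _ t', pointImage_some hW' hd' φ h t,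
      Point.neg_some, Point.some.injEq]
    exact ⟨rfl, by rw [short_negY hW, φ.neg, short_negY hW']⟩

include hW hd in
/-- The transported map is injective on three-torsion. -/
theorem pointImage_eq_zero {P : W.Point} (hP : (3 : ℤ) • P = 0)
    (h : pointImage hW' hd' φ P = 0) : P = 0 := by
  rcases P with _ | ⟨x, y, hn⟩
  · rfl
  · rw [pointImage_some hW' hd' φ hn (isTors_of_smul hW hd hn hP)] at h
    exact absurd h (Point.some_ne_zero _)

include hW hd in
/-- The transported map is additive on three-torsion. -/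
theorem pointImage_add {P Q : W.Point} (hP : (3 : ℤ) • P = 0) (hQ : (3 : ℤ) • Q = 0) :
    pointImage hW' hd' φ (P + Q) = pointImage hW' hd' φ P + pointImage hW' hd' φ Q := by
  set f := pointImage (W := W) hW' hd' φ with hf
  by_cases hP0 : P = 0
  · simp [hP0, hf, pointImage_zero]
  by_cases hQ0 : Q = 0
  · simp [hQ0, hf, pointImage_zero]
  by_cases hPQ : P + Q = 0
  · rw [hPQ, eq_neg_of_add_eq_zero_right hPQ, hf, pointImage_neg hW hd hW' hd' φ hP,
      add_neg_cancel, pointImage_zero]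
  have double : ∀ {M : Type _} [AddCommGroup M] {R : M}, (3 : ℤ) • R = 0 → R + R = -R := by
    intro M _ R h
    rw [eq_neg_iff_add_eq_zero, ← h, show (3 : ℤ) = 1 + 1 + 1 by norm_num, add_zsmul, add_zsmul,
      one_zsmul]
  by_cases hPQ' : P = Q
  · subst hPQ'
    rw [double hP, hf, pointImage_neg hW hd hW' hd' φ hP,
      double (three_smul_pointImage hW hd hW' hd' φ hP)]
  -- three distinct points on a line
  obtain ⟨x₁, y₁, h₁, rfl⟩ : ∃ x y h, P = .some x y h := by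
    rcases P with _ | ⟨x, y, h⟩
    · exact absurd rfl hP0
    · exact ⟨x, y, h, rfl⟩
  obtain ⟨x₂, y₂, h₂, rfl⟩ : ∃ x y h, Q = .some x y h := by
    rcases Q with _ | ⟨x, y, h⟩
    · exact absurd rfl hQ0
    · exact ⟨x, y, h, rfl⟩
  have hx12 : x₁ ≠ x₂ := by
    rintro rfl
    rcases Y_eq_of_X_eq h₁.1 h₂.1 rfl with rfl | e
    · exact hPQ' rfl
    · exact hPQ (Point.add_of_Y_eq rfl e)
  have hxy : ¬(x₁ = x₂ ∧ y₁ = W.negY x₂ y₂) := fun e => hx12 e.1
  obtain ⟨L, hL⟩ : ∃ L, W.slope x₁ x₂ y₁ y₂ = L := ⟨_, rfl⟩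
  have hsum : Point.some x₁ y₁ h₁ + Point.some x₂ y₂ h₂ =
      -Point.some (W.addX x₁ x₂ L) (W.negAddY x₁ x₂ y₁ L)
        (hL ▸ Affine.nonsingular_negAdd h₁ h₂ hxy) := by
    subst hL
    rw [Point.add_some hxy, Point.neg_some]
    rfl
  obtain ⟨h₃, hR⟩ : ∃ h₃, Point.some x₁ y₁ h₁ + Point.some x₂ y₂ h₂ =
      -Point.some (W.addX x₁ x₂ L) (W.negAddY x₁ x₂ y₁ L) h₃ := ⟨_, hsum⟩
  clear hsum
  obtain ⟨x₃, hx₃⟩ : ∃ x₃, W.addX x₁ x₂ L = x₃ := ⟨_, rfl⟩
  obtain ⟨y₃, hy₃⟩ : ∃ y₃, W.negAddY x₁ x₂ y₁ L = y₃ := ⟨_, rfl⟩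
  have hdet : lineDet x₁ y₁ x₂ y₂ x₃ y₃ = 0 := by
    have e : L * (x₁ - x₂) = y₁ - y₂ := by
      rw [← hL, Affine.slope_of_X_ne hx12, div_mul_cancel₀ _ (sub_ne_zero.mpr hx12)]
    rw [← hy₃, Affine.negAddY, hx₃, lineDet]
    linear_combination (x₁ - x₃) * e
  subst hx₃ hy₃
  set R := Point.some (W.addX x₁ x₂ L) (W.negAddY x₁ x₂ y₁ L) h₃ with hRdef
  have hR3 : (3 : ℤ) • R = 0 := by
    rw [eq_neg_iff_add_eq_zero] at hR
    rw [eq_neg_of_add_eq_zero_right hR, smul_neg, smul_add, hP, hQ, add_zero, neg_zero]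
  have t₁ := isTors_of_smul hW hd h₁ hP
  have t₂ := isTors_of_smul hW hd h₂ hQ
  have t₃ := isTors_of_smul hW hd h₃ hR3
  have hne : ∀ {x y : K} (h : W.Nonsingular x y),
      x = W.addX x₁ x₂ L → Point.some x y h = R ∨ Point.some x y h = -R := by
    intro x y h e
    subst e
    rcases Y_eq_of_X_eq h.1 h₃.1 rfl with e | e
    · left; simp [hRdef, e]
    · right; simp [hRdef, Point.neg_some, e]
  have hx13 : x₁ ≠ W.addX x₁ x₂ L := by
    intro e
    rcases hne h₁ e with e | e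
    · rw [← e, ← double hP] at hR
      exact hPQ' (add_left_cancel hR).symm
    · rw [← e] at hR
      exact hQ0 (add_eq_left.mp hR)
  have hx23 : x₂ ≠ W.addX x₁ x₂ L := by
    intro e
    rcases hne h₂ e with e | e
    · rw [← e, ← double hQ] at hR
      exact hPQ' (add_right_cancel hR)
    · rw [← e] at hR
      exact hP0 (add_eq_right.mp hR)
  have hlin := φ.collinear _ _ _ _ _ _ t₁ t₂ t₃ hx12 hx13 hx23 hdet
  have i12 : φ.X x₁ ≠ φ.X x₂ := fun e => hx12 (φ.inj _ _ _ _ t₁ t₂ e)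
  have i13 : φ.X x₁ ≠ φ.X (W.addX x₁ x₂ L) := fun e => hx13 (φ.inj _ _ _ _ t₁ t₃ e)
  have i23 : φ.X x₂ ≠ φ.X (W.addX x₁ x₂ L) := fun e => hx23 (φ.inj _ _ _ _ t₂ t₃ e)
  have hxy' : ¬(φ.X x₁ = φ.X x₂ ∧ φ.Y x₁ y₁ = W'.negY (φ.X x₂) (φ.Y x₂ y₂)) :=
    fun e => i12 e.1
  rw [hR, hf, pointImage_neg hW hd hW' hd' φ hR3, pointImage_some hW' hd' φ h₁ t₁,
    pointImage_some hW' hd' φ h₂ t₂, hRdef, pointImage_some hW' hd' φ h₃ t₃,
    Point.add_some hxy', Point.neg_some, Point.some.injEq]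
  set X₁ := φ.X x₁
  set X₂ := φ.X x₂
  set X₃ := φ.X (W.addX x₁ x₂ L)
  set Y₁ := φ.Y x₁ y₁
  set Y₂ := φ.Y x₂ y₂
  set Y₃ := φ.Y (W.addX x₁ x₂ L) (W.negAddY x₁ x₂ y₁ L)
  set M := W'.slope X₁ X₂ Y₁ Y₂ with hM
  have eM : M * (X₁ - X₂) = Y₁ - Y₂ := by
    rw [hM, Affine.slope_of_X_ne i12, div_mul_cancel₀ _ (sub_ne_zero.mpr i12)]
  have eY₃ : Y₃ = M * (X₃ - X₁) + Y₁ := by
    apply mul_left_cancel₀ (sub_ne_zero.mpr i12.symm)
    simp only [lineDet] at hlin
    linear_combination hlin + (X₃ - X₁) * eM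
  have E₁ := (short_equation hW' X₁ Y₁).mpr (φ.mem x₁ y₁ t₁).eqn
  have E₂ := (short_equation hW' X₂ Y₂).mpr (φ.mem x₂ y₂ t₂).eqn
  have hroot : (W'.addPolynomial X₁ Y₁ M).eval X₃ = 0 := by
    have E₃ := (φ.mem _ _ t₃).eqn
    have E₁' := (φ.mem x₁ y₁ t₁).eqn
    change Y₁ ^ 2 = _ at E₁'
    change Y₃ ^ 2 = _ at E₃
    rw [eY₃] at E₃
    rw [Affine.addPolynomial_eq]
    subst hW'
    simp only [shortE, Cubic.toPoly, eval_neg, eval_add, eval_mul, eval_pow, eval_X, eval_C]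
    linear_combination E₃
  rw [hM, Affine.addPolynomial_slope E₁ E₂ hxy', ← hM] at hroot
  have eX₃ : X₃ = W'.addX X₁ X₂ M := by
    simpa [sub_eq_zero, i13.symm, i23.symm] using hroot
  refine ⟨eX₃, ?_⟩
  rw [Affine.addY, Affine.negAddY, ← eX₃, eY₃]

end Fermat.Agent.SwitchThree
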