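import Fermat.Agent.SwitchThree.Algebra
import Mathlib.AlgebraicGeometry.EllipticCurve.Affine.Point

/-!
# Points of order three on `y² = x³ - 27 a x - 54 b`

A point is killed by three exactly when its abscissa divided by three is a root of `psiQ`.
-/

set_option autoImplicit false

open WeierstrassCurve WeierstrassCurve.Affine

namespace Fermat.Agent.SwitchThree

/-- The curve with invariants `(6⁴ a, 6⁶ b)`. -/
def shortE {R : Type*} [CommRing R] (a b : R) : WeierstrassCurve R := ⟨0, 0, 0, -27 * a, -54 * b⟩

/-- The short curve commutes with ring homomorphisms. -/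
theorem map_shortE {R S : Type*} [CommRing R] [CommRing S] (f : R →+* S) (a b : R) :
    (shortE a b).map f = shortE (f a) (f b) := by
  ext <;> simp [shortE, map_ofNat]

/-- The discriminant of the short curve. -/
theorem shortE_Δ {R : Type*} [CommRing R] (a b : R) :
    (shortE a b).Δ = 2 ^ 6 * 3 ^ 9 * discAB a b := by
  simp only [shortE, discAB, WeierstrassCurve.Δ, WeierstrassCurve.b₂, WeierstrassCurve.b₄,
    WeierstrassCurve.b₆, WeierstrassCurve.b₈]; ring

variable {K : Type*} [Field K] [CharZero K] {a b : K} {W : Affine K}

omit [CharZero K] in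
/-- The equation of the short curve. -/
theorem short_equation (hW : W = shortE a b) (x y : K) :
    W.Equation x y ↔ y ^ 2 = x ^ 3 - 27 * a * x - 54 * b := by
  subst hW
  rw [Affine.equation_iff]
  simp only [shortE]
  constructor <;> intro h <;> linear_combination h

omit [CharZero K] in
/-- Negation on the short curve is `y ↦ -y`. -/
theorem short_negY (hW : W = shortE a b) (x y : K) : W.negY x y = -y := by
  subst hW; simp [Affine.negY, shortE]

/-- The affine points of a nondegenerate short curve are nonsingular. -/
theorem short_nonsingular (hW : W = shortE a b) (hd : discAB a b ≠ 0) {x y : K}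
    (h : y ^ 2 = x ^ 3 - 27 * a * x - 54 * b) : W.Nonsingular x y := by
  have hΔ : W.Δ ≠ 0 := by
    subst hW
    rw [shortE_Δ]
    exact mul_ne_zero (by norm_num) hd
  exact (W.equation_iff_nonsingular_of_Δ_ne_zero hΔ).mp ((short_equation hW x y).mpr h)

theorem short_y_ne_zero (hd : discAB a b ≠ 0) {x y : K}
    (h : y ^ 2 = x ^ 3 - 27 * a * x - 54 * b) (hψ : psiQ a b (x / 3) = 0) : y ≠ 0 := by
  rintro rfl
  refine cubQ_ne_zero (a := a) (b := b) (by norm_num) two_ne_zero hd hψ ?_
  simp only [cubQ]
  linear_combination (-1 / 27 : K) * h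

variable [DecidableEq K]

/-- A point is killed by three exactly when `psiQ` vanishes at a third of its abscissa. -/
theorem three_smul_eq_zero_iff (hW : W = shortE a b) (hd : discAB a b ≠ 0) {x y : K}
    (h : W.Nonsingular x y) :
    (3 : ℤ) • Point.some x y h = 0 ↔ psiQ a b (x / 3) = 0 := by
  have he := (short_equation hW x y).mp h.1
  have e3 : (3 : ℤ) • Point.some x y h = (Point.some x y h + Point.some x y h) + Point.some x y h :=
    by rw [show (3 : ℤ) = 1 + 1 + 1 by norm_num, add_zsmul, add_zsmul, one_zsmul]
  rw [e3, add_eq_zero_iff_eq_neg]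
  by_cases hy : y = W.negY x y
  · rw [Point.add_self_of_Y_eq hy]
    constructor
    · intro h0
      exact absurd h0.symm (neg_ne_zero.mpr (Point.some_ne_zero h))
    · intro hψ
      rw [short_negY hW, eq_neg_iff_add_eq_zero] at hy
      exact absurd (mul_eq_zero.mp (by linear_combination hy : (2 : K) * y = 0))
        (by simp [short_y_ne_zero hd he hψ, two_ne_zero (α := K)])
  · have hy0 : y ≠ 0 := by
      rintro rfl
      exact hy (by rw [short_negY hW, neg_zero])
    have hsl : W.slope x x y y = (3 * x ^ 2 - 27 * a) / (2 * y) := by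
      rw [Affine.slope_of_Y_ne rfl hy, short_negY hW]
      subst hW
      simp only [shortE]
      ring
    have key : (3 * x ^ 2 - 27 * a) ^ 2 - 12 * x * y ^ 2 = -243 * psiQ a b (x / 3) := by
      simp only [psiQ]
      linear_combination (-12 * x) * he
    have hX : W.addX x x (W.slope x x y y) - x = -243 * psiQ a b (x / 3) / (4 * y ^ 2) := by
      rw [← key, hsl]
      subst hW
      simp only [shortE, Affine.addX]
      field_simp
      ring
    rw [Point.add_self_of_Y_ne hy, Point.neg_some, Point.some.injEq]
    constructor
    · rintro ⟨hx, -⟩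
      rw [sub_eq_zero.mpr hx, eq_comm, div_eq_zero_iff] at hX
      simpa [hy0] using hX
    · intro hψ
      have hx : W.addX x x (W.slope x x y y) = x := by
        rw [hψ, mul_zero, zero_div, sub_eq_zero] at hX
        exact hX
      refine ⟨hx, ?_⟩
      rw [Affine.addY, Affine.negAddY, hx, sub_self, mul_zero, zero_add]

end Fermat.Agent.SwitchThree
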