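import Fermat.Agent.SwitchThree.PointMap
import Fermat.Agent.ECTorsion.Galois
import Fermat.Agent.VariableChangePoints.Basic

/-!
# Equal Galois traces on three-torsion

An equivariant bijection of torsion preserves Galois traces; in particular a change of variables
does, and so does a coordinate map commuting with the Galois action.
-/

set_option autoImplicit false

noncomputable section

open WeierstrassCurve WeierstrassCurve.Affine WeierstrassCurve.Affine.Point
open scoped WeierstrassCurve.Affine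

namespace Fermat.Agent.SwitchThree

local notation "ℚbar" => AlgebraicClosure ℚ

/-- An equivariant bijection of torsion modules preserves traces. -/
theorem galoisTrace_eq_of_equivariant {E E' : WeierstrassCurve ℚ} {n : ℕ}
    (f : Submodule.torsionBy ℤ (E⁄ℚbar).Point n →+ Submodule.torsionBy ℤ (E'⁄ℚbar).Point n)
    (hf : Function.Bijective f)
    (σ : ℚbar ≃ₐ[ℚ] ℚbar) (hσ : ∀ P, f (σ • P) = σ • f P) :
    galoisTrace ℚ E n σ = galoisTrace ℚ E' n σ := by
  let g := LinearEquiv.ofBijective (f.toZModLinearMap n) hf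
  rw [galoisTrace_def, galoisTrace_def, ← LinearMap.trace_conj' (galoisRepModuleEnd ℚ E n σ) g]
  congr 1
  refine LinearMap.ext fun Q => ?_
  obtain ⟨P, rfl⟩ := g.surjective Q
  rw [LinearEquiv.conj_apply_apply, LinearEquiv.symm_apply_apply]
  exact hσ P

/-- A change of variables preserves traces. -/
theorem galoisTrace_variableChange (E : WeierstrassCurve ℚ) (C : VariableChange ℚ) (n : ℕ)
    (σ : ℚbar ≃ₐ[ℚ] ℚbar) : galoisTrace ℚ (C • E) n σ = galoisTrace ℚ E n σ := by
  set e := VariableChangePoints.baseChangeEquiv (K := ℚbar) (W₀ := E) C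
  let f : Submodule.torsionBy ℤ ((C • E)⁄ℚbar).Point n →+
      Submodule.torsionBy ℤ (E⁄ℚbar).Point n :=
    AddMonoidHom.mk' (fun P => ⟨e P.1, by
      rw [Submodule.mem_torsionBy_iff, ← map_zsmul,
        (Submodule.mem_torsionBy_iff _ _).mp P.2, _root_.map_zero]⟩)
      (fun P Q => Subtype.ext (map_add e P.1 Q.1))
  refine galoisTrace_eq_of_equivariant f ⟨fun P Q h => Subtype.ext (e.injective
    (congrArg Subtype.val h)), fun Q => ⟨⟨e.symm Q.1, ?_⟩, Subtype.ext (e.apply_symm_apply Q.1)⟩⟩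
    σ fun P => Subtype.ext (VariableChangePoints.baseChangeEquiv_smul C σ P.1)
  rw [Submodule.mem_torsionBy_iff, ← map_zsmul,
    (Submodule.mem_torsionBy_iff _ _).mp Q.2, _root_.map_zero]

theorem baseChange_shortE (a b : ℚ) :
    ((shortE a b)⁄ℚbar) = (shortE (algebraMap ℚ ℚbar a) (algebraMap ℚ ℚbar b)) :=
  map_shortE _ a b

/-- A coordinate map commuting with Galois gives equal traces. -/
theorem galoisTrace_eq_of_coordMap {a b a' b' : ℚ} (hd : discAB a b ≠ 0) (hd' : discAB a' b' ≠ 0)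
    (φ : CoordMap (algebraMap ℚ ℚbar a) (algebraMap ℚ ℚbar b) (algebraMap ℚ ℚbar a')
      (algebraMap ℚ ℚbar b'))
    (hX : ∀ (σ : ℚbar ≃ₐ[ℚ] ℚbar) (x : ℚbar), φ.X (σ x) = σ (φ.X x))
    (hY : ∀ (σ : ℚbar ≃ₐ[ℚ] ℚbar) (x y : ℚbar), φ.Y (σ x) (σ y) = σ (φ.Y x y))
    (σ : ℚbar ≃ₐ[ℚ] ℚbar) :
    galoisTrace ℚ (shortE a b) 3 σ = galoisTrace ℚ (shortE a' b') 3 σ := by
  have hD : discAB (algebraMap ℚ ℚbar a) (algebraMap ℚ ℚbar b) ≠ 0 := by
    rw [← map_discAB]; exact (map_ne_zero _).mpr hd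
  have hD' : discAB (algebraMap ℚ ℚbar a') (algebraMap ℚ ℚbar b') ≠ 0 := by
    rw [← map_discAB]; exact (map_ne_zero _).mpr hd'
  have hW := baseChange_shortE a b
  have hW' := baseChange_shortE a' b'
  set F := pointImage (W := ((shortE a b)⁄ℚbar)) hW' hD' φ with hF
  have hmem : ∀ P : Submodule.torsionBy ℤ ((shortE a b)⁄ℚbar).Point (3 : ℕ),
      (3 : ℤ) • (P : ((shortE a b)⁄ℚbar).Point) = 0 := fun P =>
    (Submodule.mem_torsionBy_iff _ _).mp P.2
  let f : Submodule.torsionBy ℤ ((shortE a b)⁄ℚbar).Point (3 : ℕ) →+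
      Submodule.torsionBy ℤ ((shortE a' b')⁄ℚbar).Point (3 : ℕ) :=
    AddMonoidHom.mk' (fun P => ⟨F P.1, (Submodule.mem_torsionBy_iff _ _).mpr
      (three_smul_pointImage hW hD hW' hD' φ (hmem P))⟩)
      (fun P Q => Subtype.ext (pointImage_add hW hD hW' hD' φ (hmem P) (hmem Q)))
  have hΔ : (shortE a b).Δ ≠ 0 := by
    rw [shortE_Δ]; exact mul_ne_zero (by norm_num) hd
  have hΔ' : (shortE a' b').Δ ≠ 0 := by
    rw [shortE_Δ]; exact mul_ne_zero (by norm_num) hd'
  have := ECTorsion.finite_torsionBy_rat (shortE a' b') hΔ' (n := 3) three_ne_zero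
  refine galoisTrace_eq_of_equivariant f ((Nat.bijective_iff_injective_and_card f).mpr
    ⟨(injective_iff_map_eq_zero f).mpr fun P hP => Subtype.ext
      (pointImage_eq_zero hW hD hW' hD' φ (hmem P) (congrArg Subtype.val hP)),
      (ECTorsion.card_torsionBy_rat _ hΔ three_ne_zero).trans
        (ECTorsion.card_torsionBy_rat _ hΔ' three_ne_zero).symm⟩) σ fun P => Subtype.ext ?_
  show F (σ • (P : ((shortE a b)⁄ℚbar).Point)) = σ • F P.1
  obtain ⟨P, hP⟩ := P
  rcases P with _ | ⟨x, y, h⟩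
  · rfl
  · have h3 := isTors_of_smul hW hD h ((Submodule.mem_torsionBy_iff _ _).mp hP)
    have h3' : IsTors (algebraMap ℚ ℚbar a) (algebraMap ℚ ℚbar b) (σ x) (σ y) := by
      constructor
      · simpa [map_ofNat] using congrArg σ h3.eqn
      · simpa [psiQ, map_ofNat] using congrArg σ h3.psi
    rw [hF, algEquiv_smul_def, algEquiv_smul_def, Point.map_some,
      pointImage_some hW' hD' φ _ h3, Point.map_some]
    erw [pointImage_some hW' hD' φ _ h3']
    rw [Point.some.injEq]
    exact ⟨hX σ x, hY σ x y⟩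

end Fermat.Agent.SwitchThree
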